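/-
Program R, package R3 (level-one analytic package), part J1/J2.
The modular invariant `jInv = E₄³/Δ` on the upper half plane: invariance under `SL(2,ℤ)`,
holomorphy, and surjectivity onto `ℂ`.
-/
import Mathlib

set_option autoImplicit false

noncomputable section

namespace Fermat.Agent.ProgramR.LevelOne

open UpperHalfPlane ModularForm MatrixGroups CongruenceSubgroup SlashInvariantForm
  ModularFormClass OnePoint Filter Topology Manifold

/-- The modular invariant `j = E₄³/Δ` (normalised so that `j = 1/q + 744 + ⋯`). -/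
def jInv (z : ℍ) : ℂ := E₄ z ^ 3 / ModularForm.discriminant z

lemma jInv_def (z : ℍ) : jInv z = E₄ z ^ 3 / ModularForm.discriminant z := rfl

lemma discriminant_smul (γ : SL(2, ℤ)) (z : ℍ) :
    ModularForm.discriminant (γ • z) = denom γ z ^ (12 : ℤ) * ModularForm.discriminant z := by
  have h := SlashInvariantForm.slash_action_eqn'' (Γ := 𝒮ℒ) CuspForm.discriminant
    (γ := (γ : GL (Fin 2) ℝ)) ⟨γ, rfl⟩ z
  simpa using h

lemma E₄_smul (γ : SL(2, ℤ)) (z : ℍ) :
    E₄ (γ • z) = denom γ z ^ (4 : ℤ) * E₄ z := by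
  have h := SlashInvariantForm.slash_action_eqn'' (Γ := 𝒮ℒ) E₄
    (γ := (γ : GL (Fin 2) ℝ)) ⟨γ, rfl⟩ z
  simpa using h

lemma E₆_smul (γ : SL(2, ℤ)) (z : ℍ) :
    E₆ (γ • z) = denom γ z ^ (6 : ℤ) * E₆ z := by
  have h := SlashInvariantForm.slash_action_eqn'' (Γ := 𝒮ℒ) E₆
    (γ := (γ : GL (Fin 2) ℝ)) ⟨γ, rfl⟩ z
  simpa using h

/-- `j` is invariant under `SL(2, ℤ)`. -/
theorem jInv_smul (γ : SL(2, ℤ)) (z : ℍ) : jInv (γ • z) = jInv z := by
  have hd : denom γ z ≠ 0 := denom_ne_zero _ _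
  have hΔ : ModularForm.discriminant z ≠ 0 := discriminant_ne_zero z
  rw [jInv, jInv, discriminant_smul, E₄_smul, mul_pow, ← zpow_natCast (denom γ z ^ (4 : ℤ)) 3,
    ← zpow_mul]
  norm_num
  field_simp

/-- Constructor for level-one modular forms: a holomorphic function, slash-invariant under
`SL(2,ℤ)` and bounded at `i∞`. -/
def mkLevelOne (k : ℤ) (f : ℍ → ℂ) (hslash : ∀ γ : SL(2, ℤ), f ∣[k] γ = f)
    (hol : MDiff f) (hbdd : IsBoundedAtImInfty f) : ModularForm 𝒮ℒ k where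
  toFun := f
  slash_action_eq' := fun _ ⟨γ, hγ⟩ ↦ hγ ▸ hslash γ
  holo' := hol
  bdd_at_cusps' {c} hc := by
    rw [Subgroup.IsArithmetic.isCusp_iff_isCusp_SL2Z] at hc
    rw [isBoundedAt_iff_forall_SL2Z hc]
    intro γ _
    rw [hslash γ]
    exact hbdd

@[simp] lemma mkLevelOne_apply (k : ℤ) (f : ℍ → ℂ) (hslash : ∀ γ : SL(2, ℤ), f ∣[k] γ = f)
    (hol : MDiff f) (hbdd : IsBoundedAtImInfty f) (z : ℍ) :
    mkLevelOne k f hslash hol hbdd z = f z := rfl

/-- Pointwise form of slash invariance. -/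
lemma slash_eq_of_forall_smul {k : ℤ} {f : ℍ → ℂ}
    (h : ∀ (γ : SL(2, ℤ)) (z : ℍ), f (γ • z) = denom γ z ^ k * f z) (γ : SL(2, ℤ)) :
    f ∣[k] γ = f := by
  ext z
  rw [slash_action_eq'_iff, h γ z]
  rfl

/-- A level one modular form tends to the constant term of its `q`-expansion at `i∞`. -/
lemma tendsto_atImInfty_coeff_zero {k : ℤ} (f : ModularForm 𝒮ℒ k) :
    Tendsto f atImInfty (𝓝 ((qExpansion 1 f).coeff 0)) := by
  have han := ModularFormClass.analyticAt_cuspFunction_zero f one_pos one_mem_strictPeriods_SL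
  have h1 : (cuspFunction 1 f ∘ fun τ : ℍ ↦ Function.Periodic.qParam 1 τ) = f :=
    funext fun τ ↦
      SlashInvariantFormClass.eq_cuspFunction f τ one_mem_strictPeriods_SL one_ne_zero
  have h2 := han.continuousAt.tendsto.comp (qParam_tendsto_atImInfty one_pos)
  rw [h1] at h2
  simpa [qExpansion_coeff] using h2


/-- A level-one modular form of positive weight which has a nonzero limit at `i∞` has a zero
in the upper half plane. -/
theorem exists_zero_of_tendsto_ne_zero {k : ℤ} (hk : 0 < k) (f : ModularForm 𝒮ℒ k) {a : ℂ}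
    (ha : a ≠ 0) (hf : Tendsto f atImInfty (𝓝 a)) : ∃ z : ℍ, f z = 0 := by
  by_contra hne
  push Not at hne
  have hslash : ∀ γ : SL(2, ℤ), (fun z ↦ 1 / f z) ∣[-k] γ = fun z ↦ 1 / f z := by
    apply slash_eq_of_forall_smul
    intro γ z
    have h := SlashInvariantForm.slash_action_eqn'' (Γ := 𝒮ℒ) f
      (γ := (γ : GL (Fin 2) ℝ)) ⟨γ, rfl⟩ z
    have h' : f (γ • z) = denom γ z ^ k * f z := by simpa using h
    rw [h', zpow_neg]
    have hd : denom γ z ^ k ≠ 0 := zpow_ne_zero _ (denom_ne_zero _ _)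
    field_simp
  have hol : MDiff (fun z ↦ 1 / f z) :=
    (mdifferentiable_const (c := (1 : ℂ))).div f.holo' hne
  have hbdd : IsBoundedAtImInfty (fun z ↦ 1 / f z) := by
    have : Tendsto (fun z ↦ 1 / f z) atImInfty (𝓝 (1 / a)) := by
      simpa [one_div] using hf.inv₀ ha
    exact this.isBigO_one ℝ
  have hz := levelOne_neg_weight_eq_zero (neg_neg_of_pos hk)
    (mkLevelOne (-k) (fun z ↦ 1 / f z) hslash hol hbdd)
  have := congr_fun hz I
  simp only [mkLevelOne_apply, Pi.zero_apply, one_div, inv_eq_zero] at this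
  exact hne I this


lemma tendsto_E₄_atImInfty : Tendsto E₄ atImInfty (𝓝 1) := by
  have h := tendsto_atImInfty_coeff_zero E₄
  rwa [EisensteinSeries.E_qExpansion_coeff_zero _ ⟨2, rfl⟩] at h

lemma tendsto_E₆_atImInfty : Tendsto E₆ atImInfty (𝓝 1) := by
  have h := tendsto_atImInfty_coeff_zero E₆
  rwa [EisensteinSeries.E_qExpansion_coeff_zero _ ⟨3, rfl⟩] at h

lemma tendsto_discriminant_atImInfty : Tendsto ModularForm.discriminant atImInfty (𝓝 0) :=
  discriminant_isZeroAtImInfty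

/-- The weight 12 form `E₄³ - c Δ`. -/
def jNumForm (c : ℂ) : ModularForm 𝒮ℒ 12 :=
  ModularForm.mcast (by decide) (E₄.pow 3) -
    c • CuspForm.toModularFormₗ CuspForm.discriminant

lemma jNumForm_apply (c : ℂ) (z : ℍ) :
    jNumForm c z = E₄ z ^ 3 - c * ModularForm.discriminant z := by
  have h : (E₄.pow 3) z = E₄ z ^ 3 := congr_fun (ModularForm.coe_pow E₄ 3) z
  simp [jNumForm, CuspForm.toModularFormₗ_apply, h]


/-- For every `c`, the form `E₄³ - cΔ` has a zero. -/
theorem exists_E₄_cube_eq_mul_discriminant (c : ℂ) :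
    ∃ z : ℍ, E₄ z ^ 3 = c * ModularForm.discriminant z := by
  have ht : Tendsto (jNumForm c) atImInfty (𝓝 1) := by
    have h1 := (tendsto_E₄_atImInfty.pow 3).sub (tendsto_discriminant_atImInfty.const_mul c)
    have h2 : (jNumForm c : ℍ → ℂ) = fun z ↦ E₄ z ^ 3 - c * ModularForm.discriminant z :=
      funext (jNumForm_apply c)
    rw [h2]
    simpa using h1
  obtain ⟨z, hz⟩ := exists_zero_of_tendsto_ne_zero (by norm_num) (jNumForm c) one_ne_zero ht
  exact ⟨z, by rw [jNumForm_apply] at hz; exact sub_eq_zero.mp hz⟩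


/-- `j` is holomorphic on the upper half plane. -/
theorem mdifferentiable_jInv : MDiff jInv := by
  have h : MDiff (fun z ↦ (E₄.pow 3) z / CuspForm.discriminant z) :=
    (E₄.pow 3).holo'.div CuspForm.discriminant.holo' discriminant_ne_zero
  have h2 : jInv = fun z ↦ (E₄.pow 3) z / CuspForm.discriminant z := by
    funext z
    rw [jInv, congr_fun (ModularForm.coe_pow E₄ 3) z]
    rfl
  rwa [h2]

/-- `j : ℍ → ℂ` is surjective. -/
theorem jInv_surjective : Function.Surjective jInv := by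
  intro c
  obtain ⟨z, hz⟩ := exists_E₄_cube_eq_mul_discriminant c
  exact ⟨z, by rw [jInv, hz, mul_div_cancel_right₀ _ (discriminant_ne_zero z)]⟩

lemma jInv_eq_iff (z : ℍ) (c : ℂ) :
    jInv z = c ↔ E₄ z ^ 3 = c * ModularForm.discriminant z := by
  rw [jInv, div_eq_iff (discriminant_ne_zero z)]

/-- `j - 1728 = E₆²/Δ`. -/
lemma jInv_sub_1728 (z : ℍ) : jInv z - 1728 = E₆ z ^ 2 / ModularForm.discriminant z := by
  have hΔ := discriminant_ne_zero z
  rw [jInv, eq_div_iff hΔ, sub_mul, div_mul_cancel₀ _ hΔ, discriminant_eq_E₄_cube_sub_E₆_sq]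
  ring

lemma jInv_eq_zero_iff (z : ℍ) : jInv z = 0 ↔ E₄ z = 0 := by
  rw [jInv_eq_iff, zero_mul, pow_eq_zero_iff (by norm_num)]

lemma jInv_eq_1728_iff (z : ℍ) : jInv z = 1728 ↔ E₆ z = 0 := by
  rw [← sub_eq_zero, jInv_sub_1728, div_eq_zero_iff, pow_eq_zero_iff (by norm_num)]
  simp [discriminant_ne_zero z]

end Fermat.Agent.ProgramR.LevelOne
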