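/-
Program R, package R3 (level-one analytic package), parts J6/J7.
* `exists_polynomial_of_invariant`: holomorphic `SL(2,ℤ)`-invariant functions with a pole of order
  at most `m` at the cusp are polynomials of degree at most `m` in `j`.
* `tendsto_jInv_mul_q`: `j` has a simple pole at the cusp.
-/
import Fermat.Agent.ProgramR.LevelOne.JInv

set_option autoImplicit false

noncomputable section

namespace Fermat.Agent.ProgramR.LevelOne

open UpperHalfPlane ModularForm MatrixGroups CongruenceSubgroup SlashInvariantForm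
  ModularFormClass OnePoint Filter Topology Manifold

lemma isBoundedAtImInfty_of_levelOne {k : ℤ} (f : ModularForm 𝒮ℒ k) : IsBoundedAtImInfty f :=
  (tendsto_atImInfty_coeff_zero f).isBigO_one ℝ

/-- A holomorphic `SL(2,ℤ)`-invariant function on `ℍ` which is bounded at `i∞` is constant. -/
theorem eq_const_of_invariant_of_bounded (f : ℍ → ℂ) (hol : MDiff f)
    (hinv : ∀ (γ : SL(2, ℤ)) (z : ℍ), f (γ • z) = f z) (hbdd : IsBoundedAtImInfty f) :
    ∃ c : ℂ, ∀ z, f z = c := by
  have hslash : ∀ γ : SL(2, ℤ), f ∣[(0 : ℤ)] γ = f :=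
    slash_eq_of_forall_smul (fun γ z ↦ by rw [hinv γ z]; simp)
  obtain ⟨c, hc⟩ := levelOne_weight_zero_const (mkLevelOne 0 f hslash hol hbdd)
  exact ⟨c, fun z ↦ congr_fun hc z⟩


lemma mdifferentiable_discriminant : MDiff ModularForm.discriminant :=
  CuspForm.discriminant.holo'

lemma mdifferentiable_E₄ : MDiff (E₄ : ℍ → ℂ) := E₄.holo'

lemma mdifferentiable_E₆ : MDiff (E₆ : ℍ → ℂ) := E₆.holo'

/-- **Holomorphic modular functions of level one are polynomials in `j`.**  If `f` is holomorphic
on `ℍ`, invariant under `SL(2,ℤ)`, and `f Δ^m` is bounded at `i∞` (i.e. `f` has a pole of order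
at most `m` at the cusp), then `f = P(j)` for a polynomial `P` of degree at most `m`. -/
theorem exists_polynomial_of_invariant (m : ℕ) : ∀ (f : ℍ → ℂ), MDiff f →
    (∀ (γ : SL(2, ℤ)) (z : ℍ), f (γ • z) = f z) →
    IsBoundedAtImInfty (fun z ↦ f z * ModularForm.discriminant z ^ m) →
    ∃ P : Polynomial ℂ, P.natDegree ≤ m ∧ ∀ z, f z = P.eval (jInv z) := by
  induction m with
  | zero =>
    intro f hol hinv hbdd
    obtain ⟨c, hc⟩ := eq_const_of_invariant_of_bounded f hol hinv (by simpa using hbdd)
    exact ⟨Polynomial.C c, by simp, fun z ↦ by simp [hc z]⟩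
  | succ m ih =>
    intro f hol hinv hbdd
    set k : ℤ := 12 * ((m : ℤ) + 1) with hk
    have hslash : ∀ γ : SL(2, ℤ),
        (fun z ↦ f z * ModularForm.discriminant z ^ (m + 1)) ∣[k] γ =
          fun z ↦ f z * ModularForm.discriminant z ^ (m + 1) :=
      slash_eq_of_forall_smul (fun γ z ↦ by
        rw [hinv, discriminant_smul, mul_pow, ← zpow_natCast (denom γ z ^ (12 : ℤ)) (m + 1),
          ← zpow_mul, hk]
        push_cast
        ring)
    have holF : MDiff (fun z ↦ f z * ModularForm.discriminant z ^ (m + 1)) :=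
      hol.mul (mdifferentiable_discriminant.pow (m + 1))
    set F := mkLevelOne k _ hslash holF hbdd with hF
    set c := (qExpansion 1 F).coeff 0 with hc
    have hk' : ((3 * (m + 1) : ℕ) : ℤ) * 4 = k := by rw [hk]; push_cast; ring
    set E : ModularForm 𝒮ℒ k := ModularForm.mcast hk' (E₄.pow (3 * (m + 1))) with hE
    have hE_apply : ∀ z, E z = E₄ z ^ (3 * (m + 1)) := fun z ↦ by
      rw [hE]
      exact congr_fun (ModularForm.coe_pow E₄ (3 * (m + 1))) z
    set G : ModularForm 𝒮ℒ k := F - c • E with hG
    have hG_apply : ∀ z, G z =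
        f z * ModularForm.discriminant z ^ (m + 1) - c * E₄ z ^ (3 * (m + 1)) := fun z ↦ by
      rw [hG, sub_apply, smul_apply, hE_apply, smul_eq_mul]
      rfl
    have hG0 : (qExpansion 1 G).coeff 0 = 0 := by
      have h1 := tendsto_atImInfty_coeff_zero G
      have h2 : Tendsto G atImInfty (𝓝 (c - c * 1 ^ (3 * (m + 1)))) := by
        have := (tendsto_atImInfty_coeff_zero F).sub
          ((tendsto_E₄_atImInfty.pow (3 * (m + 1))).const_mul c)
        refine this.congr fun z ↦ ?_
        rw [hG_apply]
        rfl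
      have := tendsto_nhds_unique h1 h2
      rw [this]
      ring
    set G' := CuspForm.discriminantEquiv (toCuspForm G hG0) with hG'
    have hG'_apply : ∀ z, G' z = G z / ModularForm.discriminant z := fun z ↦ by
      rw [hG', CuspForm.discriminantEquiv_apply, toCuspForm_apply]
    have key : ∀ z, (f z - c * jInv z ^ (m + 1)) * ModularForm.discriminant z ^ m = G' z := by
      intro z
      have hΔ := discriminant_ne_zero z
      have hΔ' : ModularForm.discriminant z ^ (m + 1) ≠ 0 := pow_ne_zero _ hΔ
      rw [hG'_apply, hG_apply, jInv, div_pow, ← pow_mul, eq_div_iff hΔ, sub_mul, sub_mul,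
        mul_assoc, mul_assoc, ← pow_succ, mul_assoc, div_mul_cancel₀ _ hΔ']
    obtain ⟨P, hP, hPz⟩ := ih (fun z ↦ f z - c * jInv z ^ (m + 1))
      (hol.sub ((mdifferentiable_const (c := c)).mul (mdifferentiable_jInv.pow (m + 1))))
      (fun γ z ↦ by simp only [hinv, jInv_smul])
      (by
        have := isBoundedAtImInfty_of_levelOne G'
        exact Asymptotics.IsBigO.congr_left this (fun z ↦ (key z).symm))
    refine ⟨P + Polynomial.C c * Polynomial.X ^ (m + 1), ?_, fun z ↦ ?_⟩
    · refine (Polynomial.natDegree_add_le _ _).trans (max_le (hP.trans (Nat.le_succ m)) ?_)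
      exact (Polynomial.natDegree_C_mul_le _ _).trans (Polynomial.natDegree_X_pow_le _)
    · have := hPz z
      simp only [Polynomial.eval_add, Polynomial.eval_mul, Polynomial.eval_C, Polynomial.eval_pow,
        Polynomial.eval_X]
      rw [← this]
      ring


/-- `Δ / q → 1` at `i∞`. -/
lemma tendsto_discriminant_div_q :
    Tendsto (fun z : ℍ ↦ ModularForm.discriminant z / Function.Periodic.qParam 1 z) atImInfty
      (𝓝 1) := by
  refine tendsto_atImInfty_tprod_one_sub_eta_q_pow.congr fun z ↦ ?_
  have hq : Function.Periodic.qParam 1 (z : ℂ) ≠ 0 := by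
    simp [Function.Periodic.qParam]
  rw [discriminant_eq_q_prod, mul_div_cancel_left₀ _ hq]

/-- `q / Δ → 1` at `i∞`. -/
lemma tendsto_q_div_discriminant :
    Tendsto (fun z : ℍ ↦ Function.Periodic.qParam 1 z / ModularForm.discriminant z) atImInfty
      (𝓝 1) := by
  have h := tendsto_discriminant_div_q.inv₀ one_ne_zero
  simp only [inv_one] at h
  refine h.congr fun z ↦ ?_
  rw [inv_div]

/-- `j` has a simple pole at the cusp with residue one: `j · q → 1` at `i∞`. -/
theorem tendsto_jInv_mul_q :
    Tendsto (fun z : ℍ ↦ jInv z * Function.Periodic.qParam 1 z) atImInfty (𝓝 1) := by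
  have h := (tendsto_E₄_atImInfty.pow 3).mul tendsto_q_div_discriminant
  simp only [one_pow, one_mul] at h
  refine h.congr fun z ↦ ?_
  rw [jInv]
  ring

/-- Pole order at the cusp can be measured against `q` or against `Δ`. -/
lemma isBoundedAtImInfty_mul_discriminant_pow_iff (f : ℍ → ℂ) (m : ℕ) :
    IsBoundedAtImInfty (fun z ↦ f z * ModularForm.discriminant z ^ m) ↔
      IsBoundedAtImInfty (fun z ↦ f z * Function.Periodic.qParam 1 z ^ m) := by
  have h1 : IsBoundedAtImInfty
      (fun z : ℍ ↦ (ModularForm.discriminant z / Function.Periodic.qParam 1 z) ^ m) :=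
    (tendsto_discriminant_div_q.pow m).isBigO_one ℝ
  have h2 : IsBoundedAtImInfty
      (fun z : ℍ ↦ (Function.Periodic.qParam 1 z / ModularForm.discriminant z) ^ m) :=
    (tendsto_q_div_discriminant.pow m).isBigO_one ℝ
  have hq : ∀ z : ℍ, Function.Periodic.qParam 1 (z : ℂ) ≠ 0 := fun z ↦ by
    simp [Function.Periodic.qParam]
  constructor
  · intro h
    refine Asymptotics.IsBigO.congr_left (h.mul h2) fun z ↦ ?_
    have hΔ := discriminant_ne_zero z
    simp only [Pi.mul_apply, div_pow]
    field_simp
  · intro h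
    refine Asymptotics.IsBigO.congr_left (h.mul h1) fun z ↦ ?_
    have hq' := hq z
    simp only [Pi.mul_apply, div_pow]
    field_simp

end Fermat.Agent.ProgramR.LevelOne
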