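/-
Program R, package R3 (level-one analytic package), parts J4/J5 (orders).
* `D_E₄`, `D_E₆`, `D_discriminant`: Ramanujan's identities (via the Serre derivative and the
  one-dimensionality of `M₆`, `M₈`).
* `D_jInv`: `D j = -E₄² E₆ / Δ`.
* zeros of `E₄`, `E₆` are simple; local order of `j - j(z₀)` at `z₀` is `1`, `2`, `3` according to
  `E₄ E₆ (z₀) ≠ 0`, `E₆ z₀ = 0`, `E₄ z₀ = 0`.
-/
import Fermat.Agent.ProgramR.LevelOne.JPoly

set_option autoImplicit false

noncomputable section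

namespace Fermat.Agent.ProgramR.LevelOne

open UpperHalfPlane ModularForm MatrixGroups CongruenceSubgroup SlashInvariantForm
  ModularFormClass OnePoint Filter Topology Manifold Derivative EisensteinSeries Function

/-- `E₂` is `1`-periodic. -/
lemma E2_periodic : Periodic (E2 ∘ ofComplex) 1 := by
  intro w
  by_cases hw : 0 < w.im
  · have hw' : 0 < (w + 1).im := by simpa using hw
    simp only [comp_apply, ofComplex_apply_of_im_pos hw', ofComplex_apply_of_im_pos hw,
      E2_eq_tsum_cexp]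
    have : Complex.exp (2 * Real.pi * Complex.I * (w + 1)) =
        Complex.exp (2 * Real.pi * Complex.I * w) := by
      rw [mul_add, Complex.exp_add, mul_one, Complex.exp_two_pi_mul_I, mul_one]
    simp only [this]
  · have h1 : w.im ≤ 0 := not_lt.mp hw
    have h2 : (w + 1).im ≤ 0 := by simpa using h1
    simp [comp_apply, ofComplex_apply_of_im_nonpos h1, ofComplex_apply_of_im_nonpos h2]

/-- A `1`-periodic holomorphic function bounded at `i∞` tends to the value of its cusp function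
at `0`. -/
lemma tendsto_atImInfty_cuspFunction {f : ℍ → ℂ} (hper : Periodic (f ∘ ofComplex) 1)
    (hol : MDiff f) (hbdd : IsBoundedAtImInfty f) :
    Tendsto f atImInfty (𝓝 (cuspFunction 1 f 0)) := by
  have han := analyticAt_cuspFunction_zero one_pos hper hol hbdd
  have h1 : (cuspFunction 1 f ∘ fun τ : ℍ ↦ Function.Periodic.qParam 1 τ) = f :=
    funext fun τ ↦ eq_cuspFunction τ one_ne_zero hper
  have h2 := han.continuousAt.tendsto.comp (qParam_tendsto_atImInfty one_pos)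
  rwa [h1] at h2

lemma tendsto_E2_atImInfty : Tendsto E2 atImInfty (𝓝 1) := by
  have han := analyticAt_cuspFunction_zero one_pos E2_periodic E2_mdifferentiable
    isBoundedAtImInfty_E2
  have h := tendsto_atImInfty_cuspFunction E2_periodic E2_mdifferentiable isBoundedAtImInfty_E2
  have hps := hasFPowerSeriesOnBall_cuspFunction (f := E2)
    (c := fun m : ℕ ↦ (if m = 0 then 1 else -24 * (ArithmeticFunction.sigma 1 m : ℂ))) one_pos han
    (fun τ ↦ by
      simpa only [Function.Periodic.qParam, Complex.ofReal_one, div_one] using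
        hasSum_qExpansion_E2 (z := τ))
  have h0 := hps.coeff_zero (fun _ ↦ 0)
  simp only [FormalMultilinearSeries.ofScalars_apply_eq, if_true, pow_zero,
    smul_eq_mul, mul_one] at h0
  rwa [← h0] at h


lemma hasDerivAt_qParam_one (w : ℂ) :
    HasDerivAt (Function.Periodic.qParam 1) (2 * Real.pi * Complex.I * Function.Periodic.qParam 1 w)
      w := by
  have h : HasDerivAt (fun z : ℂ ↦ 2 * Real.pi * Complex.I * z / (1 : ℝ))
      (2 * Real.pi * Complex.I) w := by
    simpa using ((hasDerivAt_id w).const_mul (2 * Real.pi * Complex.I)).div_const ((1 : ℝ) : ℂ)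
  have h2 := h.cexp
  unfold Function.Periodic.qParam
  rw [mul_comm (2 * (Real.pi : ℂ) * Complex.I) (Complex.exp _)]
  exact h2

/-- For a `1`-periodic holomorphic function bounded at `i∞`, `D f = q · F'(q)` where `F` is the
cusp function. -/
lemma D_eq_qParam_mul_deriv_cuspFunction {f : ℍ → ℂ} (hper : Periodic (f ∘ ofComplex) 1)
    (hol : MDiff f) (hbdd : IsBoundedAtImInfty f) (z : ℍ) :
    D f z = Function.Periodic.qParam 1 z * deriv (cuspFunction 1 f) (Function.Periodic.qParam 1 z) := by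
  have hq : ‖Function.Periodic.qParam 1 (z : ℂ)‖ < 1 :=
    Function.Periodic.norm_qParam_lt_one one_pos z.im_pos
  have hF := differentiableAt_cuspFunction one_pos hper hol hbdd hq
  have heq : (f ∘ ofComplex) =ᶠ[𝓝 (z : ℂ)] (cuspFunction 1 f ∘ Function.Periodic.qParam 1) := by
    filter_upwards [isOpen_upperHalfPlaneSet.mem_nhds z.im_pos] with w hw
    have := eq_cuspFunction (h := 1) (f := f) ⟨w, hw⟩ one_ne_zero hper
    simp only [comp_apply, ofComplex_apply_of_im_pos hw]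
    exact this.symm
  have hd : HasDerivAt (cuspFunction 1 f ∘ Function.Periodic.qParam 1)
      (deriv (cuspFunction 1 f) (Function.Periodic.qParam 1 z) *
        (2 * Real.pi * Complex.I * Function.Periodic.qParam 1 z)) (z : ℂ) :=
    hF.hasDerivAt.comp (z : ℂ) (hasDerivAt_qParam_one z)
  have h2 : deriv (f ∘ ofComplex) z = _ := (hd.congr_of_eventuallyEq heq).deriv
  have hpi : (2 * Real.pi * Complex.I : ℂ) ≠ 0 := by
    simp [Real.pi_ne_zero]
  rw [normalizedDerivOfComplex, h2]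
  field_simp

lemma tendsto_D_atImInfty {f : ℍ → ℂ} (hper : Periodic (f ∘ ofComplex) 1)
    (hol : MDiff f) (hbdd : IsBoundedAtImInfty f) :
    Tendsto (D f) atImInfty (𝓝 0) := by
  have han := analyticAt_cuspFunction_zero one_pos hper hol hbdd
  have hc : ContinuousAt (deriv (cuspFunction 1 f)) 0 := han.deriv.continuousAt
  have hq := qParam_tendsto_atImInfty one_pos
  have h := hq.mul (hc.tendsto.comp hq)
  rw [zero_mul] at h
  refine h.congr fun z ↦ ?_
  rw [D_eq_qParam_mul_deriv_cuspFunction hper hol hbdd z]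
  rfl


lemma periodic_of_levelOne {k : ℤ} (f : ModularForm 𝒮ℒ k) : Periodic (f ∘ ofComplex) 1 :=
  SlashInvariantFormClass.periodic_comp_ofComplex f one_mem_strictPeriods_SL

lemma slash_eq_of_levelOne {k : ℤ} (f : ModularForm 𝒮ℒ k) (γ : SL(2, ℤ)) :
    (f : ℍ → ℂ) ∣[k] γ = f :=
  SlashInvariantForm.slash_action_eqn (Γ := 𝒮ℒ) f (γ : GL (Fin 2) ℝ) ⟨γ, rfl⟩

/-- The Serre derivative of a level-one form tends to `-k/12 · a₀(f)` at `i∞`. -/
lemma tendsto_serreDerivative {k : ℤ} (f : ModularForm 𝒮ℒ k) :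
    Tendsto (serreDerivative k f) atImInfty
      (𝓝 (-((k : ℂ) * 12⁻¹ * 1 * (qExpansion 1 f).coeff 0))) := by
  have h1 := tendsto_D_atImInfty (periodic_of_levelOne f) f.holo'
    (isBoundedAtImInfty_of_levelOne f)
  have h2 := ((tendsto_E2_atImInfty.const_mul ((k : ℂ) * 12⁻¹)).mul
    (tendsto_atImInfty_coeff_zero f))
  have h3 := h1.sub h2
  rw [zero_sub] at h3
  refine h3.congr fun z ↦ ?_
  simp [serreDerivative_apply]

/-- The Serre derivative of a level-one modular form of weight `k`, as a modular form of weight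
`k + 2`. -/
def serreForm {k : ℤ} (f : ModularForm 𝒮ℒ k) : ModularForm 𝒮ℒ (k + 2) :=
  mkLevelOne (k + 2) (serreDerivative k f)
    (fun γ ↦ serreDerivative_slash_invariant f.holo' (slash_eq_of_levelOne f γ))
    (serreDerivative_mdifferentiable k f.holo')
    ((tendsto_serreDerivative f).isBigO_one ℝ)

lemma serreForm_apply {k : ℤ} (f : ModularForm 𝒮ℒ k) (z : ℍ) :
    serreForm f z = D f z - k * 12⁻¹ * E2 z * f z := rfl

lemma E₄_ne_zero : (E₄ : ModularForm 𝒮ℒ 4) ≠ 0 := E_ne_zero _ ⟨2, rfl⟩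

lemma E₆_ne_zero : (E₆ : ModularForm 𝒮ℒ 6) ≠ 0 := E_ne_zero _ ⟨3, rfl⟩

/-- **Ramanujan's identity** `D E₄ = (E₂ E₄ - E₆) / 3`. -/
theorem D_E₄ (z : ℍ) : D E₄ z = (E2 z * E₄ z - E₆ z) / 3 := by
  obtain ⟨c, hc⟩ : ∃ c : ℂ, c • E₆ = serreForm E₄ :=
    (finrank_eq_one_iff_of_nonzero' E₆ E₆_ne_zero).mp
      (Module.rank_eq_one_iff_finrank_eq_one.mp levelOne_weight_six_rank_one) _
  have hlim1 : Tendsto (serreForm E₄) atImInfty (𝓝 (c * 1)) := by
    rw [← hc]
    exact tendsto_E₆_atImInfty.const_mul c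
  have hlim2 := tendsto_serreDerivative E₄
  rw [E_qExpansion_coeff_zero _ ⟨2, rfl⟩] at hlim2
  have hcval : c * 1 = -(((4 : ℤ) : ℂ) * 12⁻¹ * 1 * 1) := tendsto_nhds_unique hlim1 hlim2
  have hz := congr_arg (fun g : ModularForm 𝒮ℒ 6 ↦ g z) hc
  simp only [smul_apply, smul_eq_mul] at hz
  have hz' : c * E₆ z = D E₄ z - ((4 : ℤ) : ℂ) * 12⁻¹ * E2 z * E₄ z := hz
  have hc' : c = -(1 / 3) := by
    rw [mul_one] at hcval; rw [hcval]; push_cast; norm_num
  rw [hc'] at hz'
  push_cast at hz'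
  linear_combination -hz'


lemma levelOne_weight_eight_rank_one : Module.rank ℂ (ModularForm 𝒮ℒ 8) = 1 :=
  (dimension_level_one 8 ⟨4, rfl⟩).trans (by simp [Nat.ModEq])

/-- `E₄²` as a modular form of weight 8. -/
def E₄sq : ModularForm 𝒮ℒ 8 := ModularForm.mcast (by norm_num) (E₄.pow 2)

lemma E₄sq_apply (z : ℍ) : E₄sq z = E₄ z ^ 2 :=
  congr_fun (ModularForm.coe_pow E₄ 2) z

lemma tendsto_E₄sq : Tendsto E₄sq atImInfty (𝓝 1) := by
  have h := tendsto_E₄_atImInfty.pow 2
  rw [one_pow] at h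
  exact h.congr fun z ↦ (E₄sq_apply z).symm

lemma E₄sq_ne_zero : E₄sq ≠ 0 := by
  intro h
  have h1 : Tendsto E₄sq atImInfty (𝓝 0) := by
    rw [h]
    exact tendsto_const_nhds
  exact one_ne_zero (tendsto_nhds_unique tendsto_E₄sq h1)

/-- **Ramanujan's identity** `D E₆ = (E₂ E₆ - E₄²) / 2`. -/
theorem D_E₆ (z : ℍ) : D E₆ z = (E2 z * E₆ z - E₄ z ^ 2) / 2 := by
  obtain ⟨c, hc⟩ : ∃ c : ℂ, c • E₄sq = ModularForm.mcast (by norm_num) (serreForm E₆) :=
    (finrank_eq_one_iff_of_nonzero' E₄sq E₄sq_ne_zero).mp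
      (Module.rank_eq_one_iff_finrank_eq_one.mp levelOne_weight_eight_rank_one) _
  have hfun : ∀ w, c * E₄ w ^ 2 = D E₆ w - ((6 : ℤ) : ℂ) * 12⁻¹ * E2 w * E₆ w := by
    intro w
    have hz := congr_arg (fun g : ModularForm 𝒮ℒ 8 ↦ g w) hc
    simp only [smul_apply, smul_eq_mul, E₄sq_apply] at hz
    exact hz
  have hlim1 : Tendsto (serreDerivative (6 : ℤ) E₆) atImInfty (𝓝 (c * 1)) := by
    have := tendsto_E₄sq.const_mul c
    refine this.congr fun w ↦ ?_
    rw [E₄sq_apply, hfun w]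
    simp [serreDerivative_apply]
  have hlim2 := tendsto_serreDerivative E₆
  rw [E_qExpansion_coeff_zero _ ⟨3, rfl⟩] at hlim2
  have hcval : c * 1 = -(((6 : ℤ) : ℂ) * 12⁻¹ * 1 * 1) := tendsto_nhds_unique hlim1 hlim2
  have hc' : c = -(1 / 2) := by
    rw [mul_one] at hcval; rw [hcval]; push_cast; norm_num
  have hz' := hfun z
  rw [hc'] at hz'
  push_cast at hz'
  linear_combination -hz'


/-- `D Δ = E₂ Δ`. -/
theorem D_discriminant (z : ℍ) :
    D ModularForm.discriminant z = E2 z * ModularForm.discriminant z := by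
  have h : (ModularForm.discriminant : ℍ → ℂ) =
      (1 / 1728 : ℂ) • ((E₄ : ℍ → ℂ) ^ 3 - (E₆ : ℍ → ℂ) ^ 2) := by
    funext w
    simp only [Pi.smul_apply, Pi.sub_apply, Pi.pow_apply, smul_eq_mul,
      discriminant_eq_E₄_cube_sub_E₆_sq w]
    ring
  have h3 : MDiff ((E₄ : ℍ → ℂ) ^ 3) := mdifferentiable_E₄.pow 3
  have h2 : MDiff ((E₆ : ℍ → ℂ) ^ 2) := mdifferentiable_E₆.pow 2
  rw [discriminant_eq_E₄_cube_sub_E₆_sq z, h, normalizedDerivOfComplex_smul _ _ (h3.sub h2),
    normalizedDerivOfComplex_sub _ _ h3 h2, normalizedDerivOfComplex_pow _ _ mdifferentiable_E₄,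
    normalizedDerivOfComplex_pow _ _ mdifferentiable_E₆]
  simp only [Pi.smul_apply, Pi.sub_apply, Pi.mul_apply, Pi.pow_apply, smul_eq_mul, D_E₄ z, D_E₆ z,
    Nat.cast_ofNat, Pi.ofNat_apply]
  ring

/-- `j Δ = E₄³` as functions. -/
lemma jInv_mul_discriminant (z : ℍ) : jInv z * ModularForm.discriminant z = E₄ z ^ 3 := by
  rw [jInv, div_mul_cancel₀ _ (discriminant_ne_zero z)]

/-- **Derivative of `j`**: `D j = - E₄² E₆ / Δ`. -/
theorem D_jInv (z : ℍ) : D jInv z = -(E₄ z ^ 2 * E₆ z) / ModularForm.discriminant z := by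
  have hΔ := discriminant_ne_zero z
  have h : jInv * (ModularForm.discriminant : ℍ → ℂ) = (E₄ : ℍ → ℂ) ^ 3 := by
    funext w
    simp only [Pi.mul_apply, Pi.pow_apply, jInv_mul_discriminant]
  have h1 := congr_arg (fun F : ℍ → ℂ ↦ D F z) h
  rw [normalizedDerivOfComplex_mul _ _ mdifferentiable_jInv mdifferentiable_discriminant,
    normalizedDerivOfComplex_pow _ _ mdifferentiable_E₄] at h1
  simp only [Pi.add_apply, Pi.mul_apply, Pi.pow_apply, D_discriminant z, D_E₄ z,
    Nat.cast_ofNat, Pi.ofNat_apply] at h1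
  rw [eq_div_iff hΔ]
  have h2 := jInv_mul_discriminant z
  have h3 : discriminant z = (E₄ z ^ 3 - E₆ z ^ 2) / 1728 := discriminant_eq_E₄_cube_sub_E₆_sq z
  linear_combination h1 - E2 z * h2


/-! ### Local orders of `j` -/

lemma analyticAt_comp_ofComplex {f : ℍ → ℂ} (hf : MDiff f) (z : ℍ) :
    AnalyticAt ℂ (f ∘ ofComplex) (z : ℂ) :=
  (UpperHalfPlane.mdifferentiable_iff.mp hf).analyticAt
    (isOpen_upperHalfPlaneSet.mem_nhds z.im_pos)

lemma two_pi_I_ne_zero : (2 * Real.pi * Complex.I : ℂ) ≠ 0 := by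
  simp [Real.pi_ne_zero]

lemma deriv_comp_ofComplex (f : ℍ → ℂ) (z : ℍ) :
    deriv (f ∘ ofComplex) (z : ℂ) = 2 * Real.pi * Complex.I * D f z := by
  rw [normalizedDerivOfComplex, mul_inv_cancel_left₀ two_pi_I_ne_zero]

/-- `E₄` and `E₆` have no common zero. -/
lemma E₄_ne_zero_of_E₆_eq_zero {z : ℍ} (h : E₆ z = 0) : E₄ z ≠ 0 := by
  intro h4
  have := discriminant_eq_E₄_cube_sub_E₆_sq z
  rw [h, h4] at this
  exact discriminant_ne_zero z (by rw [this]; norm_num)

lemma E₆_ne_zero_of_E₄_eq_zero {z : ℍ} (h : E₄ z = 0) : E₆ z ≠ 0 := fun h6 ↦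
  E₄_ne_zero_of_E₆_eq_zero h6 h

/-- The zeros of `E₄` are simple. -/
theorem analyticOrderAt_E₄ {z : ℍ} (h : E₄ z = 0) :
    analyticOrderAt ((E₄ : ℍ → ℂ) ∘ ofComplex) (z : ℂ) = 1 := by
  refine (analyticAt_comp_ofComplex mdifferentiable_E₄ z).analyticOrderAt_eq_one_of_zero_deriv_ne_zero
    (by simpa using h) ?_
  rw [deriv_comp_ofComplex, D_E₄, h, mul_zero, zero_sub]
  exact mul_ne_zero two_pi_I_ne_zero
    (div_ne_zero (neg_ne_zero.mpr (E₆_ne_zero_of_E₄_eq_zero h)) (by norm_num))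

/-- The zeros of `E₆` are simple. -/
theorem analyticOrderAt_E₆ {z : ℍ} (h : E₆ z = 0) :
    analyticOrderAt ((E₆ : ℍ → ℂ) ∘ ofComplex) (z : ℂ) = 1 := by
  refine (analyticAt_comp_ofComplex mdifferentiable_E₆ z).analyticOrderAt_eq_one_of_zero_deriv_ne_zero
    (by simpa using h) ?_
  rw [deriv_comp_ofComplex, D_E₆, h, mul_zero, zero_sub]
  exact mul_ne_zero two_pi_I_ne_zero
    (div_ne_zero (neg_ne_zero.mpr (pow_ne_zero 2 (E₄_ne_zero_of_E₆_eq_zero h))) (by norm_num))

lemma analyticAt_inv_discriminant (z : ℍ) :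
    AnalyticAt ℂ (fun w : ℂ ↦ (ModularForm.discriminant (ofComplex w))⁻¹) (z : ℂ) :=
  (analyticAt_comp_ofComplex mdifferentiable_discriminant z).inv
    (by simpa using discriminant_ne_zero z)

lemma analyticOrderAt_inv_discriminant (z : ℍ) :
    analyticOrderAt (fun w : ℂ ↦ (ModularForm.discriminant (ofComplex w))⁻¹) (z : ℂ) = 0 := by
  rw [(analyticAt_inv_discriminant z).analyticOrderAt_eq_zero]
  simpa using discriminant_ne_zero z

/-- **Local order of `j`, generic point**: if `E₄ z₀ ≠ 0` and `E₆ z₀ ≠ 0` then `j - j(z₀)` has a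
simple zero at `z₀`. -/
theorem analyticOrderAt_jInv_sub_of_ne_zero {z : ℍ} (h4 : E₄ z ≠ 0) (h6 : E₆ z ≠ 0) :
    analyticOrderAt (fun w : ℂ ↦ jInv (ofComplex w) - jInv z) (z : ℂ) = 1 := by
  have h := (analyticAt_comp_ofComplex mdifferentiable_jInv z).analyticOrderAt_sub_eq_one_of_deriv_ne_zero
    (by
      rw [deriv_comp_ofComplex, D_jInv]
      exact mul_ne_zero two_pi_I_ne_zero (div_ne_zero
        (neg_ne_zero.mpr (mul_ne_zero (pow_ne_zero 2 h4) h6)) (discriminant_ne_zero z)))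
  simpa using h

/-- **Local order of `j` at a zero of `E₆`** (the orbit of `i`): `j - 1728` vanishes to order 2. -/
theorem analyticOrderAt_jInv_sub_of_E₆_eq_zero {z : ℍ} (h6 : E₆ z = 0) :
    analyticOrderAt (fun w : ℂ ↦ jInv (ofComplex w) - jInv z) (z : ℂ) = 2 := by
  have hz : jInv z = 1728 := (jInv_eq_1728_iff z).mpr h6
  have hfun : (fun w : ℂ ↦ jInv (ofComplex w) - jInv z) =
      (((E₆ : ℍ → ℂ) ∘ ofComplex) ^ 2) *
        (fun w : ℂ ↦ (ModularForm.discriminant (ofComplex w))⁻¹) := by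
    funext w
    rw [hz, jInv_sub_1728]
    simp [div_eq_mul_inv]
  rw [hfun, analyticOrderAt_mul ((analyticAt_comp_ofComplex mdifferentiable_E₆ z).pow 2)
    (analyticAt_inv_discriminant z), analyticOrderAt_pow
    (analyticAt_comp_ofComplex mdifferentiable_E₆ z), analyticOrderAt_E₆ h6,
    analyticOrderAt_inv_discriminant]
  rfl

/-- **Local order of `j` at a zero of `E₄`** (the orbit of `ρ`): `j` vanishes to order 3. -/
theorem analyticOrderAt_jInv_sub_of_E₄_eq_zero {z : ℍ} (h4 : E₄ z = 0) :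
    analyticOrderAt (fun w : ℂ ↦ jInv (ofComplex w) - jInv z) (z : ℂ) = 3 := by
  have hz : jInv z = 0 := (jInv_eq_zero_iff z).mpr h4
  have hfun : (fun w : ℂ ↦ jInv (ofComplex w) - jInv z) =
      (((E₄ : ℍ → ℂ) ∘ ofComplex) ^ 3) *
        (fun w : ℂ ↦ (ModularForm.discriminant (ofComplex w))⁻¹) := by
    funext w
    rw [hz, sub_zero, jInv]
    simp [div_eq_mul_inv]
  rw [hfun, analyticOrderAt_mul ((analyticAt_comp_ofComplex mdifferentiable_E₄ z).pow 3)
    (analyticAt_inv_discriminant z), analyticOrderAt_pow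
    (analyticAt_comp_ofComplex mdifferentiable_E₄ z), analyticOrderAt_E₄ h4,
    analyticOrderAt_inv_discriminant]
  rfl

end Fermat.Agent.ProgramR.LevelOne
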