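/-
Program R, package R3/B1 (level one), parts c (location of zeros) / f (elliptic points).
* `eq_one_or_neg_one_of_smul_eq_self`: points with `E₄ z ≠ 0`, `E₆ z ≠ 0` have stabilizer `{±1}`.
* `E₆_I`, `E₄_ρ`, `jInv_I = 1728`, `jInv_ρ = 0`.
* `stabilizer_I_eq_zpowers`, `stabilizer_ρ_eq_zpowers`.
* `exists_smul_eq_of_stabilizer_ne`: elliptic points are in the orbit of `i` or `ρ`.
* conditional on `JInjective` (package B1-b): zeros of `E₄`, `E₆` are exactly these orbits.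
-/
import Fermat.Agent.ProgramR.LevelOne.Ramanujan

set_option autoImplicit false

noncomputable section

namespace Fermat.Agent.ProgramR.LevelOne

open UpperHalfPlane ModularForm MatrixGroups CongruenceSubgroup ModularGroup Matrix
  Matrix.SpecialLinearGroup
open scoped Modular

/-- If `γ` fixes `z` and `E₄ z ≠ 0` then `(cz+d)^4 = 1`. -/
lemma denom_pow_four_eq_one {γ : SL(2, ℤ)} {z : ℍ} (hγ : γ • z = z) (h4 : E₄ z ≠ 0) :
    denom γ z ^ (4 : ℤ) = 1 := by
  have h := E₄_smul γ z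
  rw [hγ] at h
  exact (mul_right_cancel₀ h4 (by rw [one_mul]; exact h)).symm

/-- If `γ` fixes `z` and `E₆ z ≠ 0` then `(cz+d)^6 = 1`. -/
lemma denom_pow_six_eq_one {γ : SL(2, ℤ)} {z : ℍ} (hγ : γ • z = z) (h6 : E₆ z ≠ 0) :
    denom γ z ^ (6 : ℤ) = 1 := by
  have h := E₆_smul γ z
  rw [hγ] at h
  exact (mul_right_cancel₀ h6 (by rw [one_mul]; exact h)).symm

/-- **Generic stabilizers are trivial.**  If `E₄ z ≠ 0` and `E₆ z ≠ 0` (equivalently
`j z ≠ 0, 1728`) then the stabilizer of `z` in `SL(2,ℤ)` is `{±1}`. -/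
theorem eq_one_or_neg_one_of_smul_eq_self {γ : SL(2, ℤ)} {z : ℍ} (hγ : γ • z = z)
    (h4 : E₄ z ≠ 0) (h6 : E₆ z ≠ 0) : γ = 1 ∨ γ = -1 := by
  have e4 := denom_pow_four_eq_one hγ h4
  have e6 := denom_pow_six_eq_one hγ h6
  have hd0 : denom γ z ≠ 0 := denom_ne_zero _ _
  have e2 : denom γ z ^ 2 = 1 := by
    have : denom γ z ^ (6 : ℤ) = denom γ z ^ (4 : ℤ) * denom γ z ^ 2 := by
      rw [← zpow_natCast (denom γ z) 2, ← zpow_add₀ hd0]; norm_num
    rw [e6, e4, one_mul] at this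
    exact this.symm
  have hden : denom γ z = (γ 1 0 : ℂ) * z + γ 1 1 := by
    simp [denom_apply]
  have hc : γ 1 0 = 0 := by
    have him : (denom γ z).im = 0 := by
      rcases sq_eq_sq_iff_eq_or_eq_neg.mp (show denom γ z ^ 2 = 1 ^ 2 by rw [e2, one_pow])
        with h | h <;>
        rw [h] <;> simp
    rw [hden] at him
    simp only [Complex.add_im, Complex.mul_im, Complex.intCast_re, Complex.intCast_im, zero_mul,
      add_zero, UpperHalfPlane.coe_im] at him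
    have : (γ 1 0 : ℝ) = 0 := by
      rcases mul_eq_zero.mp him with h | h
      · exact h
      · exact absurd h z.im_ne_zero
    exact_mod_cast this
  have had := γ.det_coe
  rw [det_fin_two, hc, mul_zero, sub_zero] at had
  have hfix : ((γ 0 0 : ℂ) * z + γ 0 1) / ((γ 1 0 : ℂ) * z + γ 1 1) = z := by
    have := congr_arg (fun w : ℍ ↦ (w : ℂ)) hγ
    simp only [coe_specialLinearGroup_apply] at this
    simpa using this
  have hc' : (γ 1 0 : ℂ) = 0 := by exact_mod_cast hc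
  have hd : (γ 1 1 : ℂ) ≠ 0 := by
    intro h
    have : γ 1 1 = 0 := by exact_mod_cast h
    rw [this, mul_zero] at had
    exact zero_ne_one had
  rw [hc', zero_mul, zero_add, div_eq_iff hd] at hfix
  rcases Int.eq_one_or_neg_one_of_mul_eq_one' had with ⟨ha, hd1⟩ | ⟨ha, hd1⟩
  · left
    rw [ha, hd1] at hfix
    have hb : (γ 0 1 : ℂ) = 0 := by
      push_cast at hfix; linear_combination hfix
    have hb' : γ 0 1 = 0 := by exact_mod_cast hb
    ext i j
    fin_cases i <;> fin_cases j <;> simp [ha, hd1, hb', hc]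
  · right
    rw [ha, hd1] at hfix
    have hb : (γ 0 1 : ℂ) = 0 := by
      push_cast at hfix; linear_combination hfix
    have hb' : γ 0 1 = 0 := by exact_mod_cast hb
    ext i j
    fin_cases i <;> fin_cases j <;> simp [ha, hd1, hb', hc]


/-- `E₆(i) = 0`. -/
theorem E₆_I : E₆ UpperHalfPlane.I = 0 := by
  by_contra h
  have hS : S • UpperHalfPlane.I = UpperHalfPlane.I :=
    ModularGroup.stabilizer_I.mpr (by simp)
  have h6 := denom_pow_six_eq_one hS h
  rw [denom_S] at h6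
  have : ((UpperHalfPlane.I : ℍ) : ℂ) = Complex.I := rfl
  rw [this] at h6
  have h2 : (Complex.I : ℂ) ^ (6 : ℤ) = -1 := by
    have : (Complex.I : ℂ) ^ (6 : ℤ) = (Complex.I ^ 2) ^ 3 := by
      rw [← pow_mul]; norm_cast
    rw [this, Complex.I_sq]; norm_num
  rw [h2] at h6
  norm_num at h6

/-- `j(i) = 1728`. -/
theorem jInv_I : jInv UpperHalfPlane.I = 1728 := (jInv_eq_1728_iff _).mpr E₆_I

/-- `E₄(ρ) = 0`. -/
theorem E₄_ρ : E₄ ρ = 0 := by
  by_contra h
  have hST : (S * T) • ρ = ρ := ModularGroup.stabilizer_ρ.mpr (by simp)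
  have h4 := denom_pow_four_eq_one hST h
  have hden : ∀ g : SL(2, ℤ), g = S * T → denom g ρ = (ρ : ℂ) + 1 := by
    intro g hg
    have : g = ⟨!![0, -1; 1, 1], by decide⟩ := by rw [hg]; decide
    rw [denom_apply, this]
    simp
  rw [hden _ rfl] at h4
  have h1 : ((ρ : ℂ) + 1) ^ (4 : ℤ) = (ρ : ℂ) ^ 2 := by
    have hsq := ρ_sq
    have : ((ρ : ℂ) + 1) ^ (4 : ℤ) = ((ρ : ℂ) + 1) ^ 4 := by norm_cast
    rw [this]
    have h3 : (ρ : ℂ) ^ 3 = 1 := by
      have : (ρ : ℂ) ^ 3 = (ρ : ℂ) ^ 2 * ρ := by ring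
      rw [this, hsq]
      linear_combination -hsq
    have : ((ρ : ℂ) + 1) = -(ρ : ℂ) ^ 2 := by linear_combination hsq
    rw [this]
    have : (-(ρ : ℂ) ^ 2) ^ 4 = ((ρ : ℂ) ^ 3) ^ 2 * (ρ : ℂ) ^ 2 := by ring
    rw [this, h3]; ring
  rw [h1] at h4
  -- ρ² = 1 contradicts ρ² + ρ + 1 = 0 and im ρ ≠ 0
  have hsq := ρ_sq
  rw [h4] at hsq
  have : (ρ : ℂ) = -2 := by linear_combination hsq
  have him := congr_arg Complex.im this
  have : ((ρ : ℍ) : ℂ).im = (ρ : ℍ).im := rfl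
  rw [this] at him
  simp at him
  exact ρ.im_ne_zero him

/-- `j(ρ) = 0`. -/
theorem jInv_ρ : jInv ρ = 0 := (jInv_eq_zero_iff _).mpr E₄_ρ


/-- The stabilizer of `i` in `SL(2,ℤ)` is the cyclic group of order 4 generated by `S`. -/
theorem stabilizer_I_eq_zpowers :
    MulAction.stabilizer SL(2, ℤ) UpperHalfPlane.I = Subgroup.zpowers S := by
  apply le_antisymm
  · intro g hg
    rw [MulAction.mem_stabilizer_iff, ModularGroup.stabilizer_I] at hg
    simp only [Finset.mem_insert, Finset.mem_singleton] at hg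
    rcases hg with rfl | rfl | rfl | rfl
    · exact one_mem _
    · exact ⟨2, by decide⟩
    · exact Subgroup.mem_zpowers S
    · exact ⟨3, by decide⟩
  · rw [Subgroup.zpowers_le, MulAction.mem_stabilizer_iff]
    exact ModularGroup.stabilizer_I.mpr (by simp)

/-- The stabilizer of `ρ` in `SL(2,ℤ)` is the cyclic group of order 6 generated by `ST`. -/
theorem stabilizer_ρ_eq_zpowers :
    MulAction.stabilizer SL(2, ℤ) ρ = Subgroup.zpowers (S * T) := by
  apply le_antisymm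
  · intro g hg
    rw [MulAction.mem_stabilizer_iff, ModularGroup.stabilizer_ρ] at hg
    simp only [Finset.mem_insert, Finset.mem_singleton] at hg
    rcases hg with rfl | rfl | rfl | rfl | rfl | rfl
    · exact one_mem _
    · exact ⟨3, by decide⟩
    · exact Subgroup.mem_zpowers _
    · exact ⟨4, by decide⟩
    · exact ⟨2, by decide⟩
    · exact ⟨5, by decide⟩
  · rw [Subgroup.zpowers_le, MulAction.mem_stabilizer_iff]
    exact ModularGroup.stabilizer_ρ.mpr (by simp)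

lemma S_pow_four : S ^ 4 = 1 := by decide

lemma S_sq : S ^ 2 = -1 := by decide

lemma ST_pow_three : (S * T) ^ 3 = -1 := by decide

lemma ST_pow_six : (S * T) ^ 6 = 1 := by decide

/-- **Elliptic points.**  A point with a stabilizer larger than `{±1}` is in the `SL(2,ℤ)`-orbit
of `i` or of `ρ`. -/
theorem exists_smul_eq_of_stabilizer_ne {z : ℍ} {γ : SL(2, ℤ)} (hγ : γ • z = z) (h1 : γ ≠ 1)
    (h2 : γ ≠ -1) : (∃ g : SL(2, ℤ), g • UpperHalfPlane.I = z) ∨ (∃ g : SL(2, ℤ), g • ρ = z) := by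
  obtain ⟨g, hg⟩ := ModularGroup.exists_smul_mem_fd z
  -- `g γ g⁻¹` fixes `g • z`
  have hfix : (g * γ * g⁻¹) • (g • z) = g • z := by
    rw [mul_smul, mul_smul, inv_smul_smul, hγ]
  by_cases hI : g • z = UpperHalfPlane.I
  · exact Or.inl ⟨g⁻¹, by rw [← hI, inv_smul_smul]⟩
  by_cases hρ : g • z = ρ
  · exact Or.inr ⟨g⁻¹, by rw [← hρ, inv_smul_smul]⟩
  by_cases hρ' : g • z = (1 : ℝ) +ᵥ ρ
  · refine Or.inr ⟨g⁻¹ * T, ?_⟩
    rw [mul_smul, modular_T_smul, ← hρ', inv_smul_smul]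
  · exfalso
    rcases ModularGroup.stabilizer_of_ne hg hfix hI hρ hρ' with h | h
    · apply h1
      have : γ = g⁻¹ * (g * γ * g⁻¹) * g := by group
      rw [this, h]; simp
    · apply h2
      have : γ = g⁻¹ * (g * γ * g⁻¹) * g := by group
      rw [this, h]; simp


lemma E₆_smul_I (γ : SL(2, ℤ)) : E₆ (γ • UpperHalfPlane.I) = 0 := by
  rw [E₆_smul, E₆_I, mul_zero]

lemma E₄_smul_ρ (γ : SL(2, ℤ)) : E₄ (γ • ρ) = 0 := by
  rw [E₄_smul, E₄_ρ, mul_zero]

/-- The statement that `j` separates `SL(2,ℤ)`-orbits (package B1-b, proved separately). -/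
def JInjective : Prop := ∀ z w : ℍ, jInv z = jInv w → ∃ γ : SL(2, ℤ), w = γ • z

/-- Zeros of `E₆` are exactly the orbit of `i` (given injectivity of `j` modulo `SL(2,ℤ)`). -/
theorem E₆_eq_zero_iff (hinj : JInjective) (z : ℍ) :
    E₆ z = 0 ↔ ∃ γ : SL(2, ℤ), z = γ • UpperHalfPlane.I := by
  constructor
  · intro h
    exact hinj _ _ (by rw [jInv_I, (jInv_eq_1728_iff z).mpr h])
  · rintro ⟨γ, rfl⟩
    exact E₆_smul_I γ

/-- Zeros of `E₄` are exactly the orbit of `ρ` (given injectivity of `j` modulo `SL(2,ℤ)`). -/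
theorem E₄_eq_zero_iff (hinj : JInjective) (z : ℍ) :
    E₄ z = 0 ↔ ∃ γ : SL(2, ℤ), z = γ • ρ := by
  constructor
  · intro h
    exact hinj _ _ (by rw [jInv_ρ, (jInv_eq_zero_iff z).mpr h])
  · rintro ⟨γ, rfl⟩
    exact E₄_smul_ρ γ

/-- Local order of `j` at a point of the orbit of `i`. -/
theorem analyticOrderAt_jInv_sub_smul_I (γ : SL(2, ℤ)) :
    analyticOrderAt (fun w : ℂ ↦ jInv (ofComplex w) - jInv (γ • UpperHalfPlane.I))
      ((γ • UpperHalfPlane.I : ℍ) : ℂ) = 2 :=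
  analyticOrderAt_jInv_sub_of_E₆_eq_zero (E₆_smul_I γ)

/-- Local order of `j` at a point of the orbit of `ρ`. -/
theorem analyticOrderAt_jInv_sub_smul_ρ (γ : SL(2, ℤ)) :
    analyticOrderAt (fun w : ℂ ↦ jInv (ofComplex w) - jInv (γ • ρ)) ((γ • ρ : ℍ) : ℂ) = 3 :=
  analyticOrderAt_jInv_sub_of_E₄_eq_zero (E₄_smul_ρ γ)

/-- Local order of `j` at a non-elliptic point (given injectivity of `j` modulo `SL(2,ℤ)`). -/
theorem analyticOrderAt_jInv_sub_of_not_elliptic (hinj : JInjective) {z : ℍ}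
    (hI : ¬ ∃ γ : SL(2, ℤ), z = γ • UpperHalfPlane.I) (hρ : ¬ ∃ γ : SL(2, ℤ), z = γ • ρ) :
    analyticOrderAt (fun w : ℂ ↦ jInv (ofComplex w) - jInv z) (z : ℂ) = 1 :=
  analyticOrderAt_jInv_sub_of_ne_zero (fun h ↦ hρ ((E₄_eq_zero_iff hinj z).mp h))
    (fun h ↦ hI ((E₆_eq_zero_iff hinj z).mp h))

/-- Points with `j z ≠ 0, 1728` have stabilizer `{±1}`. -/
theorem eq_one_or_neg_one_of_smul_eq_self_of_jInv_ne {γ : SL(2, ℤ)} {z : ℍ} (hγ : γ • z = z)
    (h0 : jInv z ≠ 0) (h1728 : jInv z ≠ 1728) : γ = 1 ∨ γ = -1 :=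
  eq_one_or_neg_one_of_smul_eq_self hγ (fun h ↦ h0 ((jInv_eq_zero_iff z).mpr h))
    (fun h ↦ h1728 ((jInv_eq_1728_iff z).mpr h))

end Fermat.Agent.ProgramR.LevelOne
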