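/-
Program R, package B1-b, part 1 (pure Weierstrass theory):
two period lattices with the same invariants `g₂`, `g₃` are equal.

Main result: `Fermat.Agent.ProgramR.LevelOne.lattice_eq_of_g₂_g₃_eq`.

Proof: with `P = z²℘`, `Q = z³℘' = zP' - 2P` (both analytic at `0`), the differential equation
reads `Q² = 4P³ - g₂ z⁴ P - g₃ z⁶`.  For two lattices with the same `g₂, g₃`, the difference
`h = P₁ - P₂` satisfies `(z h' - 2h)(Q₁+Q₂) = h (4(P₁²+P₁P₂+P₂²) - g₂ z⁴)`; comparing leading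
coefficients at `0` shows `h = 0` near `0`.  Hence `℘₁ = ℘₂` near `0`, hence on the complement of
both lattices (identity theorem), and the pole sets (= lattices) coincide.
-/
import Mathlib

set_option autoImplicit false

noncomputable section

open Filter Topology
open scoped PeriodPair

namespace Fermat.Agent.ProgramR.LevelOne

variable (L : PeriodPair)

/-- `P(z) = z² ℘(z)`, extended analytically to `0`. -/
def wpP (z : ℂ) : ℂ := 1 + z ^ 2 * ℘[L - (0 : ℂ)] z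

/-- `Q(z) = z³ ℘'(z)`, extended analytically to `0`. -/
def wpQ (z : ℂ) : ℂ := -2 + z ^ 3 * ℘'[L - (0 : ℂ)] z

lemma zero_mem_lattice : (0 : ℂ) ∈ L.lattice := L.lattice.zero_mem

lemma eventually_not_mem_lattice :
    ∀ᶠ z in 𝓝 (0 : ℂ), z ≠ 0 → z ∉ L.lattice := by
  filter_upwards [L.compl_lattice_sdiff_singleton_mem_nhds 0] with z hz hz0 hzl
  exact hz ⟨hzl, hz0⟩

lemma wpP_eq {z : ℂ} (hz : z ≠ 0) : wpP L z = z ^ 2 * ℘[L] z := by
  have := L.weierstrassPExcept_def ⟨0, zero_mem_lattice L⟩ z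
  simp only [sub_zero] at this
  rw [wpP, this]
  field_simp
  ring

lemma wpQ_eq {z : ℂ} (hz : z ≠ 0) : wpQ L z = z ^ 3 * ℘'[L] z := by
  have := L.derivWeierstrassPExcept_def ⟨0, zero_mem_lattice L⟩ z
  simp only [sub_zero] at this
  rw [wpQ, this]
  field_simp
  ring

@[simp] lemma wpP_zero : wpP L 0 = 1 := by simp [wpP]

@[simp] lemma wpQ_zero : wpQ L 0 = -2 := by simp [wpQ]

lemma analyticAt_wpP : AnalyticAt ℂ (wpP L) 0 := by
  unfold wpP
  have := L.analyticAt_weierstrassPExcept 0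
  fun_prop

lemma analyticAt_wpQ : AnalyticAt ℂ (wpQ L) 0 := by
  unfold wpQ
  have := L.analyticAt_derivWeierstrassPExcept 0
  fun_prop

/-- The Weierstrass differential equation in terms of `P` and `Q`. -/
lemma wpQ_sq : ∀ᶠ z in 𝓝 (0 : ℂ),
    wpQ L z ^ 2 = 4 * wpP L z ^ 3 - L.g₂ * z ^ 4 * wpP L z - L.g₃ * z ^ 6 := by
  filter_upwards [eventually_not_mem_lattice L] with z hz
  rcases eq_or_ne z 0 with rfl | hz0
  · simp; norm_num
  · rw [wpP_eq L hz0, wpQ_eq L hz0, mul_pow, L.derivWeierstrassP_sq z (hz hz0)]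
    ring

/-- `Q = z P' - 2 P` near `0`. -/
lemma wpQ_eq_deriv : ∀ᶠ z in 𝓝 (0 : ℂ),
    wpQ L z = z * deriv (wpP L) z - 2 * wpP L z := by
  have hopen : (↑L.lattice \ {(0 : ℂ)})ᶜ ∈ 𝓝 (0 : ℂ) := L.compl_lattice_sdiff_singleton_mem_nhds 0
  filter_upwards [hopen] with z hz
  have hd : DifferentiableAt ℂ ℘[L - (0 : ℂ)] z :=
    (L.analyticOnNhd_weierstrassPExcept 0 z hz).differentiableAt
  have h1 : deriv ℘[L - (0 : ℂ)] z = ℘'[L - (0 : ℂ)] z :=
    L.eqOn_deriv_weierstrassPExcept_derivWeierstrassPExcept 0 hz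
  have h2 : deriv (wpP L) z = 2 * z * ℘[L - (0 : ℂ)] z + z ^ 2 * ℘'[L - (0 : ℂ)] z := by
    have : HasDerivAt (wpP L) (0 + ((((2 : ℕ) : ℂ) * z ^ (2 - 1)) * ℘[L - (0 : ℂ)] z
        + z ^ 2 * ℘'[L - (0 : ℂ)] z)) z := by
      unfold wpP
      refine (hasDerivAt_const z (1 : ℂ)).add ?_
      have hpow : HasDerivAt (fun z : ℂ => z ^ 2) (((2 : ℕ) : ℂ) * z ^ (2 - 1)) z :=
        hasDerivAt_pow 2 z
      exact hpow.mul (h1 ▸ hd.hasDerivAt)
    rw [this.deriv]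
    push_cast
    ring
  rw [h2, wpP, wpQ]
  ring

/-- Key uniqueness statement: same `g₂, g₃` forces `P₁ = P₂` near `0`. -/
lemma wpP_eventuallyEq (L₁ L₂ : PeriodPair) (h2 : L₁.g₂ = L₂.g₂) (h3 : L₁.g₃ = L₂.g₃) :
    wpP L₁ =ᶠ[𝓝 0] wpP L₂ := by
  set h : ℂ → ℂ := fun z => wpP L₁ z - wpP L₂ z with hdef
  have hP1 := analyticAt_wpP L₁
  have hP2 := analyticAt_wpP L₂
  have hQ1 := analyticAt_wpQ L₁
  have hQ2 := analyticAt_wpQ L₂
  have hh : AnalyticAt ℂ h 0 := hP1.sub hP2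
  suffices hzero : ∀ᶠ z in 𝓝 (0 : ℂ), h z = 0 by
    filter_upwards [hzero] with z hz
    exact sub_eq_zero.mp hz
  by_contra hne
  -- the order of `h` at `0` is finite
  have hord : analyticOrderAt h 0 ≠ ⊤ := by
    rw [ne_eq, analyticOrderAt_eq_top]
    exact hne
  obtain ⟨n, hn⟩ := ENat.ne_top_iff_exists.mp hord
  obtain ⟨k, hk, hk0, hhk⟩ := (hh.analyticOrderAt_eq_natCast (n := n)).mp hn.symm
  simp only [sub_zero, smul_eq_mul] at hhk
  -- derivative of `h`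
  have hderiv : ∀ᶠ z in 𝓝 (0 : ℂ), deriv h z = deriv (fun z => z ^ n * k z) z :=
    (EventuallyEq.deriv hhk)
  have hkd : ∀ᶠ z in 𝓝 (0 : ℂ), DifferentiableAt ℂ k z :=
    hk.eventually_analyticAt.mono fun z hz => hz.differentiableAt
  have hP1d : ∀ᶠ z in 𝓝 (0 : ℂ), DifferentiableAt ℂ (wpP L₁) z :=
    hP1.eventually_analyticAt.mono fun z hz => hz.differentiableAt
  have hP2d : ∀ᶠ z in 𝓝 (0 : ℂ), DifferentiableAt ℂ (wpP L₂) z :=
    hP2.eventually_analyticAt.mono fun z hz => hz.differentiableAt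
  -- the bracket
  set S : ℂ → ℂ := fun z => wpQ L₁ z + wpQ L₂ z with hS
  set T : ℂ → ℂ := fun z => 4 * (wpP L₁ z ^ 2 + wpP L₁ z * wpP L₂ z + wpP L₂ z ^ 2)
    - L₁.g₂ * z ^ 4 with hT
  set Br : ℂ → ℂ := fun z => (((n : ℂ) - 2) * k z + z * deriv k z) * S z - k z * T z with hBr
  have hBr_an : AnalyticAt ℂ Br 0 := by
    have hk' : AnalyticAt ℂ (deriv k) 0 := hk.deriv
    simp only [hBr, hS, hT]
    fun_prop
  have hBr0 : Br 0 ≠ 0 := by
    simp only [hBr, hS, hT, wpQ_zero, wpP_zero]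
    have : (((n : ℂ) - 2) * k 0 + 0 * deriv k 0) * (-2 + -2)
        - k 0 * (4 * (1 ^ 2 + 1 * 1 + 1 ^ 2) - L₁.g₂ * 0 ^ 4) = -4 * ((n : ℂ) + 1) * k 0 := by ring
    rw [this]
    have hn1 : ((n : ℂ) + 1) ≠ 0 := by exact_mod_cast Nat.succ_ne_zero n
    exact mul_ne_zero (mul_ne_zero (by norm_num) hn1) hk0
  have hBr_ne : ∀ᶠ z in 𝓝 (0 : ℂ), Br z ≠ 0 := hBr_an.continuousAt.eventually_ne hBr0
  -- but `z^n * Br z = 0` near `0`
  have hmain : ∀ᶠ z in 𝓝 (0 : ℂ), z ^ n * Br z = 0 := by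
    filter_upwards [hhk, hderiv, hkd, hP1d, hP2d, wpQ_sq L₁, wpQ_sq L₂, wpQ_eq_deriv L₁,
      wpQ_eq_deriv L₂] with z e1 e2 e3 e4 e5 o1 o2 d1 d2
    have hdh : deriv h z = deriv (wpP L₁) z - deriv (wpP L₂) z := by
      simp only [hdef]
      exact deriv_sub e4 e5
    have hdk : deriv (fun z => z ^ n * k z) z = (n : ℂ) * z ^ (n - 1) * k z + z ^ n * deriv k z := by
      have : HasDerivAt (fun z : ℂ => z ^ n * k z)
          (((n : ℂ) * z ^ (n - 1)) * k z + z ^ n * deriv k z) z :=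
        (hasDerivAt_pow n z).mul e3.hasDerivAt
      rw [this.deriv]
    -- `z h' - 2 h = Q₁ - Q₂`
    have hQd : wpQ L₁ z - wpQ L₂ z = z * deriv h z - 2 * h z := by
      rw [d1, d2, hdh]
      simp only [hdef]
      ring
    -- difference of the two differential equations
    have hode : (wpQ L₁ z - wpQ L₂ z) * S z = h z * T z := by
      simp only [hS, hT, hdef]
      rw [h2, h3] at o1
      rw [h2]
      linear_combination o1 - o2
    rw [hQd, e2, hdk, e1] at hode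
    -- now `hode` is the desired identity up to algebra
    have hzn : z * ((n : ℂ) * z ^ (n - 1)) = (n : ℂ) * z ^ n := by
      rcases Nat.eq_zero_or_pos n with hn0 | hnpos
      · subst hn0; simp
      · have : z ^ n = z * z ^ (n - 1) := by
          conv_lhs => rw [← Nat.sub_add_cancel hnpos, pow_succ']
        rw [this]; ring
    simp only [hBr]
    have : z ^ n * ((((n : ℂ) - 2) * k z + z * deriv k z) * S z - k z * T z)
        = (z * ((n : ℂ) * z ^ (n - 1) * k z + z ^ n * deriv k z) - 2 * (z ^ n * k z)) * S z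
          - z ^ n * k z * T z := by
      have e : z * ((n : ℂ) * z ^ (n - 1) * k z + z ^ n * deriv k z)
          = (n : ℂ) * z ^ n * k z + z * z ^ n * deriv k z := by
        linear_combination (k z) * hzn
      rw [e]
      ring
    rw [this, hode]
    ring
  -- contradiction on a punctured neighbourhood
  have hfreq : ∃ᶠ z in 𝓝 (0 : ℂ), z ≠ 0 := by
    have : (𝓝[≠] (0 : ℂ)).NeBot := inferInstance
    have h1 : ∃ᶠ z in 𝓝[≠] (0 : ℂ), z ≠ 0 :=
      (eventually_mem_nhdsWithin (a := (0 : ℂ)) (s := {0}ᶜ)).frequently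
    exact h1.filter_mono nhdsWithin_le_nhds
  obtain ⟨z, ⟨hz1, hz2⟩, hz0⟩ := ((hmain.and hBr_ne).and_frequently hfreq).exists
  rcases mul_eq_zero.mp hz1 with hz | hz
  · exact hz0 (eq_zero_of_pow_eq_zero hz)
  · exact hz2 hz

/-- Same `g₂, g₃` forces `℘₁ = ℘₂` on a punctured neighbourhood of `0`. -/
lemma weierstrassP_eventuallyEq (L₁ L₂ : PeriodPair) (h2 : L₁.g₂ = L₂.g₂) (h3 : L₁.g₃ = L₂.g₃) :
    ∀ᶠ z in 𝓝 (0 : ℂ), z ≠ 0 → ℘[L₁] z = ℘[L₂] z := by
  filter_upwards [wpP_eventuallyEq L₁ L₂ h2 h3] with z hz hz0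
  rw [wpP_eq L₁ hz0, wpP_eq L₂ hz0] at hz
  exact mul_left_cancel₀ (pow_ne_zero 2 hz0) hz

lemma countable_lattice : (L.lattice : Set ℂ).Countable := by
  have : Countable L.lattice := by
    have e := L.latticeEquivProd
    exact Countable.of_equiv _ e.symm.toEquiv
  have hsub : (L.lattice : Set ℂ) ⊆ Set.range (fun l : L.lattice => (l : ℂ)) :=
    fun x hx => ⟨⟨x, hx⟩, rfl⟩
  exact Set.Countable.mono hsub (Set.countable_range (fun l : L.lattice => (l : ℂ)))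

/-- Same `g₂, g₃` forces `℘₁ = ℘₂` away from the two lattices. -/
lemma weierstrassP_eqOn (L₁ L₂ : PeriodPair) (h2 : L₁.g₂ = L₂.g₂) (h3 : L₁.g₃ = L₂.g₃) :
    Set.EqOn ℘[L₁] ℘[L₂] ((L₁.lattice : Set ℂ) ∪ L₂.lattice)ᶜ := by
  set U : Set ℂ := ((L₁.lattice : Set ℂ) ∪ L₂.lattice)ᶜ with hU
  have hUconn : IsPreconnected U := by
    have hc : ((L₁.lattice : Set ℂ) ∪ L₂.lattice).Countable :=
      (countable_lattice L₁).union (countable_lattice L₂)
    have hr : 1 < Module.rank ℝ ℂ := by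
      rw [Complex.rank_real_complex]; norm_num
    exact (hc.isPathConnected_compl_of_one_lt_rank hr).isConnected.isPreconnected
  have hA1 : AnalyticOnNhd ℂ ℘[L₁] U :=
    L₁.analyticOnNhd_weierstrassP.mono (Set.compl_subset_compl.mpr Set.subset_union_left)
  have hA2 : AnalyticOnNhd ℂ ℘[L₂] U :=
    L₂.analyticOnNhd_weierstrassP.mono (Set.compl_subset_compl.mpr Set.subset_union_right)
  -- find a base point
  have hev : ∀ᶠ z in 𝓝 (0 : ℂ), z ≠ 0 → (℘[L₁] z = ℘[L₂] z ∧ z ∈ U) := by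
    filter_upwards [weierstrassP_eventuallyEq L₁ L₂ h2 h3, eventually_not_mem_lattice L₁,
      eventually_not_mem_lattice L₂] with z hz h1 h2' hz0
    refine ⟨hz hz0, ?_⟩
    simp only [hU, Set.mem_compl_iff, Set.mem_union, SetLike.mem_coe, not_or]
    exact ⟨h1 hz0, h2' hz0⟩
  have hev2 := eventually_eventually_nhds.mpr hev
  have hfreq : ∃ᶠ z in 𝓝 (0 : ℂ), z ≠ 0 := by
    have h1 : ∃ᶠ z in 𝓝[≠] (0 : ℂ), z ≠ 0 :=
      (eventually_mem_nhdsWithin (a := (0 : ℂ)) (s := {0}ᶜ)).frequently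
    exact h1.filter_mono nhdsWithin_le_nhds
  obtain ⟨z₀, ⟨hz₀, hz₀'⟩, hz₀0⟩ := ((hev2.and hev).and_frequently hfreq).exists
  have hne : ∀ᶠ w in 𝓝 z₀, w ≠ 0 := (continuous_id.continuousAt).eventually_ne hz₀0
  have heq : ℘[L₁] =ᶠ[𝓝 z₀] ℘[L₂] := by
    filter_upwards [hz₀, hne] with w hw hw0
    exact (hw hw0).1
  exact hA1.eqOn_of_preconnected_of_eventuallyEq hA2 hUconn (hz₀' hz₀0).2 heq

lemma lattice_le_of_g₂_g₃_eq (L₁ L₂ : PeriodPair) (h2 : L₁.g₂ = L₂.g₂) (h3 : L₁.g₃ = L₂.g₃) :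
    L₁.lattice ≤ L₂.lattice := by
  intro l hl
  by_contra hl2
  have hE := weierstrassP_eqOn L₁ L₂ h2 h3
  have hev : ℘[L₁] =ᶠ[𝓝[≠] l] ℘[L₂] := by
    rw [Filter.EventuallyEq, eventually_nhdsWithin_iff]
    filter_upwards [L₁.compl_lattice_sdiff_singleton_mem_nhds l,
      L₂.isClosed_lattice.isOpen_compl.mem_nhds hl2] with z hz1 hz2 hzl
    apply hE
    simp only [Set.mem_compl_iff, Set.mem_union, SetLike.mem_coe, not_or]
    exact ⟨fun h => hz1 ⟨h, hzl⟩, hz2⟩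
  have h1 := meromorphicOrderAt_congr hev
  rw [L₁.order_weierstrassP l hl] at h1
  have h2' : (0 : WithTop ℤ) ≤ meromorphicOrderAt ℘[L₂] l :=
    (L₂.analyticOnNhd_weierstrassP l hl2).meromorphicOrderAt_nonneg
  rw [← h1] at h2'
  exact absurd h2' (by decide)

/-- **Two period lattices with the same `g₂` and `g₃` are equal.** -/
theorem lattice_eq_of_g₂_g₃_eq (L₁ L₂ : PeriodPair) (h2 : L₁.g₂ = L₂.g₂) (h3 : L₁.g₃ = L₂.g₃) :
    L₁.lattice = L₂.lattice :=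
  le_antisymm (lattice_le_of_g₂_g₃_eq L₁ L₂ h2 h3) (lattice_le_of_g₂_g₃_eq L₂ L₁ h2.symm h3.symm)

end Fermat.Agent.ProgramR.LevelOne
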