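/-
Program R, package B1-b: the `j`-invariant is injective modulo `SL(2,ℤ)`:
`jInv z = jInv z' → ∃ γ : SL(2,ℤ), z' = γ • z`.

Route: bridge `G₄, G₆` of the lattice `λ(ℤ z + ℤ)` with `E₄ z, E₆ z`; equal `j` gives a homothety `λ`
with equal `g₂, g₃`; `WPUnique.lattice_eq_of_g₂_g₃_eq` gives equal lattices; equal lattices give
`z' = γ • z`.
-/
import Mathlib
import Fermat.Agent.ProgramR.LevelOne.WPUnique
import Fermat.Agent.ProgramR.LevelOne.JInv

set_option autoImplicit false

noncomputable section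

open UpperHalfPlane hiding I
open Complex ModularForm EisensteinSeries MatrixGroups Filter Topology
open scoped PeriodPair

namespace Fermat.Agent.ProgramR.LevelOne

/-- The period pair `(λ z, λ)` for `z ∈ ℍ` and `λ ≠ 0`. -/
def periodPairOf (lam : ℂ) (hlam : lam ≠ 0) (z : ℍ) : PeriodPair where
  ω₁ := lam * z
  ω₂ := lam
  indep := by
    rw [LinearIndependent.pair_iff]
    intro s t hst
    have h1 : lam * ((s : ℂ) * z + t) = 0 := by
      have : (s : ℂ) * (lam * z) + (t : ℂ) * lam = 0 := by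
        simpa [Complex.real_smul] using hst
      linear_combination this
    have h2 : (s : ℂ) * z + t = 0 := (mul_eq_zero.mp h1).resolve_left hlam
    have him := congrArg Complex.im h2
    have hre := congrArg Complex.re h2
    simp at him hre
    have hs : s = 0 := by
      rcases him with h | h
      · exact h
      · exact absurd h z.im_ne_zero
    subst hs
    simp at hre
    exact ⟨rfl, hre⟩

@[simp] lemma periodPairOf_ω₁ (lam : ℂ) (hlam : lam ≠ 0) (z : ℍ) :
    (periodPairOf lam hlam z).ω₁ = lam * z := rfl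

@[simp] lemma periodPairOf_ω₂ (lam : ℂ) (hlam : lam ≠ 0) (z : ℍ) :
    (periodPairOf lam hlam z).ω₂ = lam := rfl

/-- `G_k` of a period pair as a sum over `ℤ × ℤ`. -/
lemma G_eq_tsum_prod (L : PeriodPair) (k : ℕ) :
    L.G k = ∑' x : ℤ × ℤ, (((x.1 : ℂ) * L.ω₁ + x.2 * L.ω₂) ^ k)⁻¹ := by
  rw [PeriodPair.G, ← L.latticeEquivProd.symm.toEquiv.tsum_eq]
  refine tsum_congr fun x => ?_
  simp only [LinearEquiv.coe_toEquiv]
  rw [L.latticeEquiv_symm_apply]

/-- Bridge: `G_k(λ(ℤ z + ℤ)) = λ^{-k} · 2 ζ(k) E_k(z)`. -/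
lemma G_periodPairOf (lam : ℂ) (hlam : lam ≠ 0) (z : ℍ) {k : ℕ} (hk : 3 ≤ k) :
    (periodPairOf lam hlam z).G k = (lam ^ k)⁻¹ * (2 * riemannZeta k * E hk z) := by
  rw [G_eq_tsum_prod]
  have h1 : ∀ x : ℤ × ℤ, ((((x.1 : ℂ) * (periodPairOf lam hlam z).ω₁ +
      x.2 * (periodPairOf lam hlam z).ω₂)) ^ k)⁻¹ =
      (lam ^ k)⁻¹ * eisSummand k ![x.1, x.2] z := by
    intro x
    simp only [periodPairOf_ω₁, periodPairOf_ω₂, eisSummand, Matrix.cons_val_zero,
      Matrix.cons_val_one, zpow_neg, zpow_natCast]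
    rw [← mul_inv, ← mul_pow]
    congr 2
    ring
  simp_rw [h1]
  rw [tsum_mul_left]
  congr 1
  have h2 : ∑' x : ℤ × ℤ, eisSummand k ![x.1, x.2] z = ∑' v : Fin 2 → ℤ, eisSummand k v z := by
    rw [← (finTwoArrowEquiv ℤ).symm.tsum_eq]
    rfl
  rw [h2, tsum_eisSummand_eq_riemannZeta_mul_eisensteinSeries hk z]
  have h3 : E hk z = (1 / 2 : ℂ) • eisensteinSeriesSIF (N := 1) 0 k z := rfl
  rw [h3, eisensteinSeriesSIF_apply]
  simp only [smul_eq_mul]
  ring

lemma riemannZeta_nat_ne_zero {k : ℕ} (hk : 3 ≤ k) : riemannZeta k ≠ 0 :=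
  riemannZeta_ne_zero_of_one_lt_re (by
    simp only [natCast_re]
    exact_mod_cast (by omega : 1 < k))

lemma g₂_periodPairOf (lam : ℂ) (hlam : lam ≠ 0) (z : ℍ) :
    (periodPairOf lam hlam z).g₂ = 60 * ((lam ^ 4)⁻¹ * (2 * riemannZeta (4 : ℕ) * E₄ z)) := by
  rw [PeriodPair.g₂, G_periodPairOf lam hlam z (by norm_num : 3 ≤ 4)]

lemma g₃_periodPairOf (lam : ℂ) (hlam : lam ≠ 0) (z : ℍ) :
    (periodPairOf lam hlam z).g₃ = 140 * ((lam ^ 6)⁻¹ * (2 * riemannZeta (6 : ℕ) * E₆ z)) := by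
  rw [PeriodPair.g₃, G_periodPairOf lam hlam z (by norm_num : 3 ≤ 6)]

/-- The homothety: if `j z = j z'` there is `λ ≠ 0` with `E₄ z' = λ⁴ E₄ z`, `E₆ z' = λ⁶ E₆ z`. -/
lemma exists_homothety {z z' : ℍ} (hj : jInv z = jInv z') :
    ∃ lam : ℂ, lam ≠ 0 ∧ E₄ z' = lam ^ 4 * E₄ z ∧ E₆ z' = lam ^ 6 * E₆ z := by
  set a := E₄ z with ha
  set b := E₆ z with hb
  set a' := E₄ z' with ha'
  set b' := E₆ z' with hb'
  have hΔ : a ^ 3 - b ^ 2 ≠ 0 := by
    have h1 := ModularForm.discriminant_eq_E₄_cube_sub_E₆_sq z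
    have h2 := ModularForm.discriminant_ne_zero z
    intro h0
    apply h2
    rw [h1, ← ha, ← hb, h0, zero_div]
  have hΔ' : a' ^ 3 - b' ^ 2 ≠ 0 := by
    have h1 := ModularForm.discriminant_eq_E₄_cube_sub_E₆_sq z'
    have h2 := ModularForm.discriminant_ne_zero z'
    intro h0
    apply h2
    rw [h1, ← ha', ← hb', h0, zero_div]
  -- the key relation `a³ b'² = a'³ b²`
  have hrel : a ^ 3 * b' ^ 2 = a' ^ 3 * b ^ 2 := by
    have h1 : jInv z = a ^ 3 / ((a ^ 3 - b ^ 2) / 1728) := by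
      rw [jInv_def, ModularForm.discriminant_eq_E₄_cube_sub_E₆_sq z]
    have h2 : jInv z' = a' ^ 3 / ((a' ^ 3 - b' ^ 2) / 1728) := by
      rw [jInv_def, ModularForm.discriminant_eq_E₄_cube_sub_E₆_sq z']
    rw [h1, h2] at hj
    field_simp at hj
    linear_combination -hj
  by_cases ha0 : a = 0
  · -- `a = 0`
    have hb0 : b ≠ 0 := by
      intro h; apply hΔ; rw [ha0, h]; ring
    have ha'0 : a' = 0 := by
      rw [ha0] at hrel
      have : a' ^ 3 * b ^ 2 = 0 := by rw [← hrel]; ring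
      rcases mul_eq_zero.mp this with h | h
      · exact eq_zero_of_pow_eq_zero h
      · exact absurd (eq_zero_of_pow_eq_zero h) hb0
    have hb'0 : b' ≠ 0 := by
      intro h; apply hΔ'; rw [ha'0, h]; ring
    obtain ⟨lam, hlam⟩ := IsAlgClosed.exists_pow_nat_eq (b' / b) (n := 6) (by norm_num)
    have hl0 : lam ≠ 0 := by
      rintro rfl
      have : b' / b = 0 := by rw [← hlam]; ring
      exact absurd this (div_ne_zero hb'0 hb0)
    refine ⟨lam, hl0, ?_, ?_⟩
    · rw [ha'0, ha0, mul_zero]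
    · rw [hlam]; field_simp
  by_cases hb0 : b = 0
  · have ha'0 : a' ≠ 0 := by
      intro h
      have hb'0 : b' = 0 := by
        rw [h, hb0] at hrel
        have : a ^ 3 * b' ^ 2 = 0 := by rw [hrel]; ring
        rcases mul_eq_zero.mp this with h' | h'
        · exact absurd (eq_zero_of_pow_eq_zero h') ha0
        · exact eq_zero_of_pow_eq_zero h'
      apply hΔ'; rw [h, hb'0]; ring
    have hb'0 : b' = 0 := by
      rw [hb0] at hrel
      have : a ^ 3 * b' ^ 2 = 0 := by rw [hrel]; ring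
      rcases mul_eq_zero.mp this with h' | h'
      · exact absurd (eq_zero_of_pow_eq_zero h') ha0
      · exact eq_zero_of_pow_eq_zero h'
    obtain ⟨lam, hlam⟩ := IsAlgClosed.exists_pow_nat_eq (a' / a) (n := 4) (by norm_num)
    have hl0 : lam ≠ 0 := by
      rintro rfl
      have : a' / a = 0 := by rw [← hlam]; ring
      exact absurd this (div_ne_zero ha'0 ha0)
    refine ⟨lam, hl0, ?_, ?_⟩
    · rw [hlam]; field_simp
    · rw [hb'0, hb0, mul_zero]
  · -- generic case
    have ha'0 : a' ≠ 0 := by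
      intro h
      have hb'0 : b' = 0 := by
        rw [h] at hrel
        have : a ^ 3 * b' ^ 2 = 0 := by rw [hrel]; ring
        rcases mul_eq_zero.mp this with h' | h'
        · exact absurd (eq_zero_of_pow_eq_zero h') ha0
        · exact eq_zero_of_pow_eq_zero h'
      apply hΔ'; rw [h, hb'0]; ring
    have hb'0 : b' ≠ 0 := by
      intro h
      rw [h] at hrel
      have : a' ^ 3 * b ^ 2 = 0 := by rw [← hrel]; ring
      rcases mul_eq_zero.mp this with h' | h'
      · exact ha'0 (eq_zero_of_pow_eq_zero h')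
      · exact hb0 (eq_zero_of_pow_eq_zero h')
    obtain ⟨lam, hlam⟩ := IsAlgClosed.exists_pow_nat_eq ((b' / b) / (a' / a)) (n := 2)
      (by norm_num)
    have hl0 : lam ≠ 0 := by
      rintro rfl
      have : (b' / b) / (a' / a) = 0 := by rw [← hlam]; ring
      exact absurd this (div_ne_zero (div_ne_zero hb'0 hb0) (div_ne_zero ha'0 ha0))
    have huv : (a' / a) ^ 3 = (b' / b) ^ 2 := by
      field_simp
      linear_combination -hrel
    have hl4 : lam ^ 4 = a' / a := by
      have : lam ^ 4 = (lam ^ 2) ^ 2 := by ring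
      rw [this, hlam, div_pow, ← huv]
      field_simp
    have hl6 : lam ^ 6 = b' / b := by
      have : lam ^ 6 = (lam ^ 2) ^ 3 := by ring
      rw [this, hlam, div_pow, huv]
      field_simp
    refine ⟨lam, hl0, ?_, ?_⟩
    · rw [hl4]; field_simp
    · rw [hl6]; field_simp

lemma mem_lattice_periodPairOf {lam : ℂ} {hlam : lam ≠ 0} {z : ℍ} {x : ℂ} :
    x ∈ (periodPairOf lam hlam z).lattice ↔ ∃ m n : ℤ, (m : ℂ) * (lam * z) + n * lam = x :=
  PeriodPair.mem_lattice

/-- Two complex numbers `s z + t`, with `s t` real, vanish only if `s = t = 0`. -/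
lemma eq_zero_of_real_combination {z : ℍ} {s t : ℝ} (h : (s : ℂ) * z + t = 0) :
    s = 0 ∧ t = 0 := by
  have him := congrArg Complex.im h
  have hre := congrArg Complex.re h
  simp at him hre
  have hs : s = 0 := by
    rcases him with h | h
    · exact h
    · exact absurd h z.im_ne_zero
  subst hs
  simp at hre
  exact ⟨rfl, hre⟩

/-- Equal lattices `ℤ z + ℤ = λ(ℤ z' + ℤ)` give `z' = γ • z` with `γ ∈ SL(2,ℤ)`. -/
lemma exists_smul_eq_of_lattice_eq {z z' : ℍ} {lam : ℂ} (hlam : lam ≠ 0)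
    (hL : (periodPairOf 1 one_ne_zero z).lattice = (periodPairOf lam hlam z').lattice) :
    ∃ γ : SL(2, ℤ), z' = γ • z := by
  -- `λ z'` and `λ` lie in `ℤ z + ℤ`
  have h1 : lam * z' ∈ (periodPairOf 1 one_ne_zero z).lattice := by
    rw [hL]; exact (periodPairOf lam hlam z').ω₁_mem_lattice
  have h2 : lam ∈ (periodPairOf 1 one_ne_zero z).lattice := by
    rw [hL]; exact (periodPairOf lam hlam z').ω₂_mem_lattice
  have h3 : (z : ℂ) ∈ (periodPairOf lam hlam z').lattice := by
    rw [← hL]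
    have := (periodPairOf 1 one_ne_zero z).ω₁_mem_lattice
    simpa using this
  have h4 : (1 : ℂ) ∈ (periodPairOf lam hlam z').lattice := by
    rw [← hL]; exact (periodPairOf 1 one_ne_zero z).ω₂_mem_lattice
  obtain ⟨a, b, hab⟩ := mem_lattice_periodPairOf.mp h1
  obtain ⟨c, d, hcd⟩ := mem_lattice_periodPairOf.mp h2
  obtain ⟨a', b', hab'⟩ := mem_lattice_periodPairOf.mp h3
  obtain ⟨c', d', hcd'⟩ := mem_lattice_periodPairOf.mp h4
  simp only [one_mul, mul_one] at hab hcd
  -- substitute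
  have e1 : (((a' * a + b' * c - 1 : ℤ) : ℝ) : ℂ) * z + ((a' * b + b' * d : ℤ) : ℝ) = 0 := by
    push_cast
    linear_combination hab' + (a' : ℂ) * hab + (b' : ℂ) * hcd
  have e2 : (((c' * a + d' * c : ℤ) : ℝ) : ℂ) * z + ((c' * b + d' * d - 1 : ℤ) : ℝ) = 0 := by
    push_cast
    linear_combination hcd' + (c' : ℂ) * hab + (d' : ℂ) * hcd
  obtain ⟨f1, f2⟩ := eq_zero_of_real_combination e1
  obtain ⟨f3, f4⟩ := eq_zero_of_real_combination e2
  have g1 : a' * a + b' * c = 1 := by exact_mod_cast sub_eq_zero.mp (by exact_mod_cast f1)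
  have g2 : a' * b + b' * d = 0 := by exact_mod_cast f2
  have g3 : c' * a + d' * c = 0 := by exact_mod_cast f3
  have g4 : c' * b + d' * d = 1 := by exact_mod_cast sub_eq_zero.mp (by exact_mod_cast f4)
  have hdet : (a * d - b * c) * (a' * d' - b' * c') = 1 := by
    have : (a * d - b * c) * (a' * d' - b' * c')
        = (a' * a + b' * c) * (c' * b + d' * d) - (a' * b + b' * d) * (c' * a + d' * c) := by
      ring
    rw [this, g1, g2, g3, g4]
    norm_num
  -- positivity of the determinant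
  have hw : (c : ℂ) * z + d ≠ 0 := by rw [hcd]; exact hlam
  have hz' : (z' : ℂ) * ((c : ℂ) * z + d) = a * z + b := by
    rw [hcd, hab]; ring
  have hre := congrArg Complex.re hz'
  have him := congrArg Complex.im hz'
  simp only [Complex.mul_re, Complex.mul_im, Complex.add_re, Complex.add_im, Complex.intCast_re,
    Complex.intCast_im, UpperHalfPlane.coe_re, UpperHalfPlane.coe_im, zero_mul, sub_zero,
    add_zero] at hre him
  have hkey : z'.im * (((c : ℝ) * z.re + d) ^ 2 + ((c : ℝ) * z.im) ^ 2)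
      = ((a * d - b * c : ℤ) : ℝ) * z.im := by
    push_cast
    linear_combination ((c : ℝ) * z.re + d) * him - ((c : ℝ) * z.im) * hre
  have hnorm : 0 < ((c : ℝ) * z.re + d) ^ 2 + ((c : ℝ) * z.im) ^ 2 := by
    have h0 := Complex.normSq_pos.mpr hw
    rw [Complex.normSq_apply] at h0
    simp only [Complex.add_re, Complex.mul_re, Complex.intCast_re, Complex.intCast_im,
      UpperHalfPlane.coe_re, UpperHalfPlane.coe_im, zero_mul, sub_zero, Complex.add_im,
      Complex.mul_im, add_zero] at h0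
    nlinarith [h0]
  have hdetpos : (0 : ℝ) < ((a * d - b * c : ℤ) : ℝ) := by
    have hpos : 0 < z'.im * (((c : ℝ) * z.re + d) ^ 2 + ((c : ℝ) * z.im) ^ 2) :=
      mul_pos z'.im_pos hnorm
    rw [hkey] at hpos
    exact (mul_pos_iff_of_pos_right z.im_pos).mp hpos
  have hdetpos' : 0 < a * d - b * c := by exact_mod_cast hdetpos
  have hdet1 : a * d - b * c = 1 := Int.eq_one_of_mul_eq_one_right hdetpos'.le hdet
  have hdetM : (!![a, b; c, d] : Matrix (Fin 2) (Fin 2) ℤ).det = 1 := by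
    rw [Matrix.det_fin_two_of]; exact hdet1
  let γ : SL(2, ℤ) := ⟨!![a, b; c, d], hdetM⟩
  refine ⟨γ, ?_⟩
  apply UpperHalfPlane.ext
  rw [UpperHalfPlane.coe_specialLinearGroup_apply]
  have e00 : (γ : Matrix (Fin 2) (Fin 2) ℤ) 0 0 = a := rfl
  have e01 : (γ : Matrix (Fin 2) (Fin 2) ℤ) 0 1 = b := rfl
  have e10 : (γ : Matrix (Fin 2) (Fin 2) ℤ) 1 0 = c := rfl
  have e11 : (γ : Matrix (Fin 2) (Fin 2) ℤ) 1 1 = d := rfl
  rw [e00, e01, e10, e11]
  simp only [algebraMap_int_eq, Int.coe_castRingHom, Complex.ofReal_intCast]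
  rw [eq_div_iff hw]
  exact hz'

/-- **Injectivity of `j` modulo `SL(2,ℤ)`.** -/
theorem exists_smul_eq_of_jInv_eq {z z' : ℍ} (hj : jInv z = jInv z') :
    ∃ γ : SL(2, ℤ), z' = γ • z := by
  obtain ⟨lam, hlam, h4, h6⟩ := exists_homothety hj
  apply exists_smul_eq_of_lattice_eq hlam
  apply lattice_eq_of_g₂_g₃_eq
  · rw [g₂_periodPairOf, g₂_periodPairOf, h4]
    field_simp
  · rw [g₃_periodPairOf, g₃_periodPairOf, h6]
    field_simp

end Fermat.Agent.ProgramR.LevelOne
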