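/-
Program R, package R3/B1 (level one), final assembly of parts b/c/f:
zeros of `E₄`, `E₆` are the orbits of `ρ`, `i`; local order `jOrder z` of `j - j z` at `z`;
`Nat.card (stabilizer SL(2,ℤ) z) = 2 * jOrder z`.
-/
import Fermat.Agent.ProgramR.LevelOne.Elliptic
import Fermat.Agent.ProgramR.LevelOne.JInjective

set_option autoImplicit false

noncomputable section

namespace Fermat.Agent.ProgramR.LevelOne

open UpperHalfPlane ModularForm MatrixGroups CongruenceSubgroup ModularGroup Matrix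
  Matrix.SpecialLinearGroup
open scoped Modular

/-- `j` separates `SL(2,ℤ)`-orbits (helper8's `exists_smul_eq_of_jInv_eq`). -/
theorem jInjective : JInjective := fun _ _ h ↦ exists_smul_eq_of_jInv_eq h

/-- `j z = j w` iff `z` and `w` are `SL(2,ℤ)`-equivalent. -/
theorem jInv_eq_iff_exists_smul (z w : ℍ) : jInv z = jInv w ↔ ∃ γ : SL(2, ℤ), w = γ • z :=
  ⟨fun h ↦ exists_smul_eq_of_jInv_eq h, fun ⟨γ, h⟩ ↦ by rw [h, jInv_smul]⟩

/-- The zeros of `E₆` are exactly the `SL(2,ℤ)`-orbit of `i`. -/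
theorem E₆_eq_zero_iff_mem_orbit (z : ℍ) :
    E₆ z = 0 ↔ ∃ γ : SL(2, ℤ), z = γ • UpperHalfPlane.I := E₆_eq_zero_iff jInjective z

/-- The zeros of `E₄` are exactly the `SL(2,ℤ)`-orbit of `ρ`. -/
theorem E₄_eq_zero_iff_mem_orbit (z : ℍ) :
    E₄ z = 0 ↔ ∃ γ : SL(2, ℤ), z = γ • ρ := E₄_eq_zero_iff jInjective z

theorem jInv_eq_1728_iff_mem_orbit (z : ℍ) :
    jInv z = 1728 ↔ ∃ γ : SL(2, ℤ), z = γ • UpperHalfPlane.I := by
  rw [jInv_eq_1728_iff, E₆_eq_zero_iff_mem_orbit]

theorem jInv_eq_zero_iff_mem_orbit (z : ℍ) :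
    jInv z = 0 ↔ ∃ γ : SL(2, ℤ), z = γ • ρ := by
  rw [jInv_eq_zero_iff, E₄_eq_zero_iff_mem_orbit]

/-- The local order of `j - j(z)` at `z` (`3` on the orbit of `ρ`, `2` on the orbit of `i`,
`1` elsewhere). -/
def jOrder (z : ℍ) : ℕ := if E₄ z = 0 then 3 else if E₆ z = 0 then 2 else 1

theorem analyticOrderAt_jInv_sub (z : ℍ) :
    analyticOrderAt (fun w : ℂ ↦ jInv (ofComplex w) - jInv z) (z : ℂ) = jOrder z := by
  unfold jOrder
  split_ifs with h4 h6
  · exact analyticOrderAt_jInv_sub_of_E₄_eq_zero h4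
  · exact analyticOrderAt_jInv_sub_of_E₆_eq_zero h6
  · exact analyticOrderAt_jInv_sub_of_ne_zero h4 h6

lemma jOrder_smul (γ : SL(2, ℤ)) (z : ℍ) : jOrder (γ • z) = jOrder z := by
  have hd : ∀ k : ℤ, denom γ z ^ k ≠ 0 := fun k ↦ zpow_ne_zero _ (denom_ne_zero _ _)
  unfold jOrder
  rw [E₄_smul, E₆_smul]
  simp only [mul_eq_zero, hd, false_or]

lemma orderOf_S : orderOf S = 4 := by
  have := orderOf_eq_prime_pow (x := S) (p := 2) (n := 1) (by decide) (by decide)
  simpa using this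

lemma orderOf_ST : orderOf (S * T) = 6 :=
  orderOf_eq_of_pow_and_pow_div_prime (by norm_num) ST_pow_six (by
    intro p hp hdvd
    have hp6 : p ∣ 6 := hdvd
    have : p = 2 ∨ p = 3 := by
      have hle : p ≤ 6 := Nat.le_of_dvd (by norm_num) hp6
      interval_cases p <;> simp_all <;> norm_num at hp
    rcases this with rfl | rfl <;> decide)

/-- **Stabilizers and local orders.**  For every `z : ℍ` the stabilizer of `z` in `SL(2,ℤ)` has
`2 · ord_z (j - j z)` elements. -/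
theorem card_stabilizer (z : ℍ) :
    Nat.card (MulAction.stabilizer SL(2, ℤ) z) = 2 * jOrder z := by
  have hconj : ∀ (γ : SL(2, ℤ)) (w : ℍ), Nat.card (MulAction.stabilizer SL(2, ℤ) (γ • w)) =
      Nat.card (MulAction.stabilizer SL(2, ℤ) w) := by
    intro γ w
    rw [MulAction.stabilizer_smul_eq_stabilizer_map_conj]
    exact Nat.card_congr
      ((MulAction.stabilizer SL(2, ℤ) w).equivMapOfInjective _
        (MulAut.conj γ).injective).symm.toEquiv
  by_cases h4 : E₄ z = 0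
  · obtain ⟨γ, rfl⟩ := (E₄_eq_zero_iff_mem_orbit z).mp h4
    rw [hconj, jOrder_smul, stabilizer_ρ_eq_zpowers, Nat.card_zpowers, orderOf_ST]
    simp [jOrder, E₄_ρ]
  by_cases h6 : E₆ z = 0
  · obtain ⟨γ, rfl⟩ := (E₆_eq_zero_iff_mem_orbit z).mp h6
    rw [hconj, jOrder_smul, stabilizer_I_eq_zpowers, Nat.card_zpowers, orderOf_S]
    have : E₄ UpperHalfPlane.I ≠ 0 := E₄_ne_zero_of_E₆_eq_zero E₆_I
    simp [jOrder, E₆_I, this]
  · have hstab : (MulAction.stabilizer SL(2, ℤ) z : Set SL(2, ℤ)) = {1, -1} := by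
      ext g
      simp only [SetLike.mem_coe, MulAction.mem_stabilizer_iff, Set.mem_insert_iff,
        Set.mem_singleton_iff]
      constructor
      · intro hg
        exact eq_one_or_neg_one_of_smul_eq_self hg h4 h6
      · rintro (rfl | rfl)
        · exact one_smul _ _
        · rw [SL_neg_smul, one_smul]
    have hne : (1 : SL(2, ℤ)) ≠ -1 := by decide
    have : Nat.card (MulAction.stabilizer SL(2, ℤ) z) =
        Nat.card ((MulAction.stabilizer SL(2, ℤ) z : Set SL(2, ℤ))) := rfl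
    rw [this, hstab, Nat.card_coe_set_eq, Set.ncard_pair hne]
    simp [jOrder, h4, h6]

end Fermat.Agent.ProgramR.LevelOne
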