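/-
Program R, level one: the derivative `D j = -E₄² E₆ / Δ` as a weight-2 object.
* `mdifferentiable_D_jInv`, `D_jInv_smul` (weight-2 transformation under `SL(2,ℤ)`),
* `analyticOrderAt_D_jInv` : the order of `D j` at `z` is `jOrder z - 1`,
* `D_jInv_eq_zero_iff`, `tendsto_D_jInv_mul_q` (`q · D j → -1` at `i∞`).
-/
import Fermat.Agent.ProgramR.LevelOne.Zeros

set_option autoImplicit false

noncomputable section

namespace Fermat.Agent.ProgramR.LevelOne

open UpperHalfPlane ModularForm EisensteinSeries MatrixGroups CongruenceSubgroup Filter Topology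
  Derivative
open scoped Manifold

local notation "Δ" => ModularForm.discriminant

lemma D_jInv_funext : D jInv = fun z : ℍ ↦ -(E₄ z ^ 2 * E₆ z) / Δ z :=
  funext D_jInv

lemma mdifferentiable_D_jInv : MDiff (D jInv) := by
  rw [D_jInv_funext]
  have h : MDiff (fun z : ℍ ↦ (-(E₄ z ^ 2 * E₆ z)) / CuspForm.discriminant z) :=
    (((mdifferentiable_E₄.pow 2).mul mdifferentiable_E₆).neg).div CuspForm.discriminant.holo'
      discriminant_ne_zero
  exact h

/-- `D j` transforms with weight 2 under `SL(2,ℤ)`. -/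
theorem D_jInv_smul (γ : SL(2, ℤ)) (z : ℍ) :
    D jInv (γ • z) = denom γ z ^ 2 * D jInv z := by
  have hd : denom γ z ≠ 0 := denom_ne_zero _ _
  have hΔ : Δ z ≠ 0 := discriminant_ne_zero z
  rw [D_jInv, D_jInv, discriminant_smul, E₄_smul, E₆_smul]
  have h12 : denom γ z ^ (12 : ℤ) = denom γ z ^ (12 : ℕ) := by norm_cast
  have h4 : denom γ z ^ (4 : ℤ) = denom γ z ^ (4 : ℕ) := by norm_cast
  have h6 : denom γ z ^ (6 : ℤ) = denom γ z ^ (6 : ℕ) := by norm_cast
  rw [h12, h4, h6]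
  field_simp

lemma D_jInv_eq_zero_iff (z : ℍ) : D jInv z = 0 ↔ E₄ z = 0 ∨ E₆ z = 0 := by
  rw [D_jInv, div_eq_zero_iff, neg_eq_zero, mul_eq_zero, pow_eq_zero_iff (by norm_num)]
  simp [discriminant_ne_zero z]

lemma D_jInv_ne_zero_iff (z : ℍ) : D jInv z ≠ 0 ↔ jOrder z = 1 := by
  rw [Ne, D_jInv_eq_zero_iff]
  unfold jOrder
  by_cases h4 : E₄ z = 0
  · simp [h4]
  · by_cases h6 : E₆ z = 0
    · simp [h4, h6]
    · simp [h4, h6]

/-- The order of vanishing of `D j` at `z` is `jOrder z - 1`. -/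
theorem analyticOrderAt_D_jInv (z : ℍ) :
    analyticOrderAt (D jInv ∘ ofComplex) (z : ℂ) = ((jOrder z - 1 : ℕ) : ℕ∞) := by
  have hfun : (D jInv ∘ ofComplex) =
      (-((((E₄ : ℍ → ℂ) ∘ ofComplex) ^ 2) * ((E₆ : ℍ → ℂ) ∘ ofComplex))) *
        (fun w : ℂ ↦ (Δ (ofComplex w))⁻¹) := by
    funext w
    simp [D_jInv, div_eq_mul_inv]
  have a4 := analyticAt_comp_ofComplex mdifferentiable_E₄ z
  have a6 := analyticAt_comp_ofComplex mdifferentiable_E₆ z
  rw [hfun, analyticOrderAt_mul ((a4.pow 2).mul a6).neg (analyticAt_inv_discriminant z),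
    analyticOrderAt_inv_discriminant, add_zero, analyticOrderAt_neg,
    analyticOrderAt_mul (a4.pow 2) a6, analyticOrderAt_pow a4]
  unfold jOrder
  split_ifs with h4 h6
  · have h6' : E₆ z ≠ 0 := E₆_ne_zero_of_E₄_eq_zero h4
    rw [analyticOrderAt_E₄ h4, a6.analyticOrderAt_eq_zero.mpr (by simpa using h6')]
    rfl
  · rw [analyticOrderAt_E₆ h6, a4.analyticOrderAt_eq_zero.mpr (by simpa using h4)]
    rfl
  · rw [a6.analyticOrderAt_eq_zero.mpr (by simpa using h6),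
      a4.analyticOrderAt_eq_zero.mpr (by simpa using h4)]
    rfl

/-- `q · D j → -1` at `i∞`: `D j` has a simple pole in `q` with leading coefficient `-1`. -/
theorem tendsto_D_jInv_mul_q :
    Tendsto (fun z : ℍ ↦ D jInv z * Function.Periodic.qParam 1 z) atImInfty (𝓝 (-1)) := by
  have h := (((tendsto_E₄_atImInfty.pow 2).mul tendsto_E₆_atImInfty).neg).mul
    tendsto_q_div_discriminant
  simp only [one_pow, mul_one] at h
  refine h.congr fun z ↦ ?_
  rw [D_jInv]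
  ring

/-- `D j = - j · E₆ / E₄` away from the zeros of `E₄`. -/
lemma D_jInv_eq_neg_jInv_mul (z : ℍ) (h4 : E₄ z ≠ 0) : D jInv z = -(jInv z * E₆ z / E₄ z) := by
  have hΔ := discriminant_ne_zero z
  rw [D_jInv, jInv]
  field_simp

/-- The polynomial identity `(D j)² · Δ² = E₄⁴ E₆²`. -/
lemma D_jInv_sq_mul (z : ℍ) : D jInv z ^ 2 * Δ z ^ 2 = E₄ z ^ 4 * E₆ z ^ 2 := by
  have hΔ := discriminant_ne_zero z
  rw [D_jInv]
  field_simp

/-- `j (j - 1728) = E₄³ E₆² / Δ²`. -/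
lemma jInv_mul_jInv_sub (z : ℍ) :
    jInv z * (jInv z - 1728) = E₄ z ^ 3 * E₆ z ^ 2 / Δ z ^ 2 := by
  have hΔ := discriminant_ne_zero z
  rw [jInv_sub_1728, jInv]
  field_simp

/-- The key identity behind `f ↦ -f/Dj`: `(f E₄ E₆/Δ) = -(f / D j) · j (j - 1728)` in
multiplied-out form: `(f E₄ E₆ / Δ) · D j = - f · j (j - 1728)`. -/
lemma num_mul_D_jInv (c : ℂ) (z : ℍ) :
    (c * E₄ z * E₆ z / Δ z) * D jInv z = -(c * (jInv z * (jInv z - 1728))) := by
  have hΔ := discriminant_ne_zero z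
  rw [jInv_mul_jInv_sub, D_jInv]
  field_simp

end Fermat.Agent.ProgramR.LevelOne
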