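/-
Program R, package R3/B1 (level one), parts a/d: `j` is a weakly holomorphic modular function
(`IsWH0 Γ jInv`), `WH0 ⊤ = ℂ[j]` (`isWH0_top_iff`), and the chart at infinity
(`exists_polynomial_inv_of_isWH0`).
-/
import Fermat.Agent.ProgramR.Defs
import Fermat.Agent.ProgramR.LevelOne.JPoly

set_option autoImplicit false

noncomputable section

namespace Fermat.Agent.ProgramR.LevelOne

open UpperHalfPlane ModularForm MatrixGroups CongruenceSubgroup SlashInvariantForm
  ModularFormClass OnePoint Filter Topology Manifold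

/-- `j Δ = E₄³` as functions. -/
lemma jInv_mul_discriminant' (z : ℍ) : jInv z * ModularForm.discriminant z = E₄ z ^ 3 := by
  rw [jInv, div_mul_cancel₀ _ (discriminant_ne_zero z)]

/-- `j` is a weakly holomorphic modular function for every subgroup of `SL(2,ℤ)`. -/
theorem isWH0_jInv (Γ : Subgroup SL(2, ℤ)) : IsWH0 Γ jInv where
  mdiff := mdifferentiable_jInv
  smul_eq := fun γ _ z ↦ jInv_smul γ z
  exists_bdd := ⟨1, fun g ↦ by
    have h : IsBoundedAtImInfty (fun z : ℍ ↦ E₄ z ^ 3) :=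
      (tendsto_E₄_atImInfty.pow 3).isBigO_one ℝ
    refine Asymptotics.IsBigO.congr_left h fun z ↦ ?_
    rw [jInv_smul, pow_one, jInv_mul_discriminant']⟩

lemma jInv_mem_WH0 (Γ : Subgroup SL(2, ℤ)) : jInv ∈ WH0 Γ := isWH0_jInv Γ

/-- **Level one weakly holomorphic modular functions are polynomials in `j`.** -/
theorem exists_polynomial_of_isWH0 {h : ℍ → ℂ} (H : IsWH0 ⊤ h) :
    ∃ P : Polynomial ℂ, ∀ z, h z = P.eval (jInv z) := by
  obtain ⟨m, hm⟩ := H.exists_bdd
  obtain ⟨P, -, hP⟩ := exists_polynomial_of_invariant m h H.mdiff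
    (fun γ z ↦ H.smul_eq γ (Subgroup.mem_top γ) z) (by simpa using hm 1)
  exact ⟨P, hP⟩

lemma isWH0_jInv_pow (Γ : Subgroup SL(2, ℤ)) (n : ℕ) : IsWH0 Γ (fun z ↦ jInv z ^ n) := by
  induction n with
  | zero => simpa using isWH0_const Γ 1
  | succ n ih =>
    have := ih.mul (isWH0_jInv Γ)
    have e : ((fun z ↦ jInv z ^ n) * jInv) = fun z ↦ jInv z ^ (n + 1) := by
      funext z; simp [pow_succ]
    rwa [e] at this

/-- Conversely polynomials in `j` are weakly holomorphic modular functions. -/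
theorem isWH0_eval_jInv (Γ : Subgroup SL(2, ℤ)) (P : Polynomial ℂ) :
    IsWH0 Γ (fun z ↦ P.eval (jInv z)) := by
  induction P using Polynomial.induction_on' with
  | add p q hp hq =>
    have := hp.add hq
    have e : ((fun z ↦ p.eval (jInv z)) + fun z ↦ q.eval (jInv z)) =
        fun z ↦ (p + q).eval (jInv z) := by
      funext z; simp
    rwa [e] at this
  | monomial n a =>
    have := (isWH0_const Γ a).mul (isWH0_jInv_pow Γ n)
    have e : ((fun _ : ℍ ↦ a) * fun z ↦ jInv z ^ n) =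
        fun z ↦ (Polynomial.monomial n a).eval (jInv z) := by
      funext z; simp
    rwa [e] at this

/-- `WH0 ⊤ = ℂ[j]`. -/
theorem isWH0_top_iff {h : ℍ → ℂ} :
    IsWH0 ⊤ h ↔ ∃ P : Polynomial ℂ, ∀ z, h z = P.eval (jInv z) := by
  refine ⟨exists_polynomial_of_isWH0, fun ⟨P, hP⟩ ↦ ?_⟩
  have : h = fun z ↦ P.eval (jInv z) := funext hP
  rw [this]
  exact isWH0_eval_jInv ⊤ P

/-- **Chart at infinity.**  If `h · j^m` is a weakly holomorphic modular function of level one and
`h` is bounded at `i∞`, then `h` is a polynomial of degree at most `m` in `1/j` (away from the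
zeros of `j`). -/
theorem exists_polynomial_inv_of_isWH0 {h : ℍ → ℂ} {m : ℕ}
    (H : IsWH0 ⊤ (fun z ↦ h z * jInv z ^ m)) (hb : IsBoundedAtImInfty h) :
    ∃ P : Polynomial ℂ, P.natDegree ≤ m ∧ ∀ z, jInv z ≠ 0 → h z = P.eval (jInv z)⁻¹ := by
  have hbdd : IsBoundedAtImInfty
      (fun z ↦ (h z * jInv z ^ m) * ModularForm.discriminant z ^ m) := by
    have h4 : IsBoundedAtImInfty (fun z : ℍ ↦ (E₄ z ^ 3) ^ m) :=
      ((tendsto_E₄_atImInfty.pow 3).pow m).isBigO_one ℝ
    refine Asymptotics.IsBigO.congr_left (hb.mul h4) fun z ↦ ?_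
    simp only [Pi.mul_apply]
    rw [mul_assoc, ← mul_pow, jInv_mul_discriminant']
  obtain ⟨Q, hQ, hQz⟩ := exists_polynomial_of_invariant m _ H.mdiff
    (fun γ z ↦ H.smul_eq γ (Subgroup.mem_top γ) z) hbdd
  refine ⟨Polynomial.reflect m Q, ?_, fun z hz ↦ ?_⟩
  · exact (Polynomial.natDegree_reflect_le).trans (max_le le_rfl hQ)
  · let _ : Invertible (jInv z) := invertibleOfNonzero hz
    have h1 := Polynomial.eval₂_reflect_mul_pow (RingHom.id ℂ) (jInv z) m Q hQ
    simp only [Polynomial.eval₂_id, invOf_eq_inv] at h1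
    have h2 := hQz z
    have hne : jInv z ^ m ≠ 0 := pow_ne_zero m hz
    apply mul_right_cancel₀ hne
    rw [h2, ← h1]

end Fermat.Agent.ProgramR.LevelOne
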